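import Fermat.Agent.GT.Loc.Conc.Adapt
import Fermat.Agent.GT.Val.Inst.NormVal

/-!
GT-LOC, concrete layer, file `Hred`: the norm inputs of `Glue.geo_conc` / `export_conc` for the maps
`nm1C`, `nm2C`: `NormHyp`, `hred`, `hN1`, `hN2`.
-/

set_option autoImplicit false
set_option synthInstance.maxHeartbeats 400000

namespace Fermat.Agent.GT.Loc

open Fermat.Agent.GR Fermat.Agent.GR.E Fermat.Agent.GR.D.Vert Fermat.Agent.GT.EMB
  Fermat.Agent.GT.Val ModularCurve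

noncomputable section

section Gen

variable {L L' : Type} [Field L] [Field L'] [Algebra L L']
  {R : ValuationSubring L} [IsDiscreteValuationRing R]
  {R' : ValuationSubring L'} [IsDiscreteValuationRing R']
  {q M0 : ℕ} [NeZero q] [NeZero M0] [NeZero (q * M0)] [NeZero (q ^ 2 * M0)] {ζ : L'ˣ} {ϖ : R}

/-- `hred` of `export_conc` from `NormHyp`. -/
theorem hred_of_normHyp (C : Ctx R R' q M0 ζ ϖ) {N2 : FF L (q ^ 2 * M0) →* FF L (q * M0)}
    (H : NormHyp q M0 ζ (nm1C L q M0) N2) :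
    ∀ a ∈ Ozero R q M0, up (dvd_sq q M0) (nm1C L q M0 a) - a ^ q ∈ (Ozero R q M0).nonunits :=
  fun a ha => (normVal1 C H).red_ins a ha

end Gen

section Conc

variable {L : IntermediateField ℚ Qb} {L' : Type} [Field L'] [Algebra L L']
  {R : ValuationSubring L} [IsDiscreteValuationRing R]
  {R' : ValuationSubring L'} [IsDiscreteValuationRing R']
  {q M0 : ℕ} [NeZero q] [NeZero M0] [NeZero (q * M0)] [NeZero (q ^ 2 * M0)] {ζ : L'ˣ} {ϖ : R}

theorem exists_iotaL (L : IntermediateField ℚ Qb) : Nonempty (L →+* ℂ) := by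
  obtain ⟨ι⟩ : Nonempty (Qb →+* ℂ) := S24.nonempty_iotaC
  exact ⟨ι.comp (algebraMap L Qb)⟩

/-- `NormHyp` for the maps of LOC. -/
theorem normHyp_conc (C : Ctx R R' q M0 ζ ϖ) (e : L' →+* Qb)
    (he : e.comp (algebraMap L L') = algebraMap L Qb) :
    NormHyp q M0 ζ (nm1C L q M0) (nm2C R q M0) := by
  obtain ⟨ι⟩ := exists_iotaL L
  rw [nm1C_eq_nm1, nm2C_eq_nm2 ι C.prime C.ndvd]
  exact normHyp_nm C e he

/-- `hred` of `export_conc`. -/
theorem hred_conc (C : Ctx R R' q M0 ζ ϖ) (e : L' →+* Qb)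
    (he : e.comp (algebraMap L L') = algebraMap L Qb) :
    ∀ a ∈ Ozero R q M0, up (dvd_sq q M0) (nm1C L q M0 a) - a ^ q ∈ (Ozero R q M0).nonunits :=
  hred_of_normHyp C (normHyp_conc C e he)

omit [NeZero q] [NeZero M0] [NeZero (q * M0)] [NeZero (q ^ 2 * M0)] in
/-- `hN1` of `Glue.geo_conc`. -/
theorem hN1_conc (hq : q.Prime) (hM0 : M0 ≠ 0) (hqM : ¬ q ∣ M0) (x : FF L (q ^ 2 * M0)) :
    coeffMap (algebraMap L Qb) (nm1C L q M0 x : LaurentSeries L) =
      ((normFF Qb (N := q * M0) (N' := q ^ 2 * M0) ⟨q, by ring⟩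
        (mapFF (algebraMap L Qb) (q ^ 2 * M0) x) : FF Qb (q * M0)) : LaurentSeries Qb) := by
  rw [nm1C_eq, ← Brg.mapFF_nm1 L hq hM0 hqM x, coe_mapFF]

omit [NeZero M0] [IsDiscreteValuationRing R] in
/-- `hN2` of `Glue.geo_conc`. -/
theorem hN2_conc (hq : q.Prime) (hM0 : M0 ≠ 0) (hqM : ¬ q ∣ M0) (ξ : Qbˣ)
    (hξ : IsPrimitiveRoot ξ q) (x : FF L (q ^ 2 * M0)) :
    coeffMap (algebraMap L Qb) (nm2C R q M0 x : LaurentSeries L) =
      normT q ξ (coeffMap (algebraMap L Qb) (x : LaurentSeries L)) := by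
  obtain ⟨ι⟩ := exists_iotaL L
  rw [nm2C_eq ι hq hqM, Brg.coeffMap_nm2 L hq hM0 hqM ξ hξ]

end Conc

end

end Fermat.Agent.GT.Loc
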