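import Fermat.Agent.GT.Loc.Conc.ThreeInst
import Fermat.Agent.GT.Loc.MidThree

/-!
GT-LOC, concrete layer, file `Main`: the export to GT-GLUE for one chart, in concrete terms.
-/

set_option autoImplicit false
set_option synthInstance.maxHeartbeats 400000
set_option linter.unusedSectionVars false
set_option linter.style.haveILetI false

namespace Fermat.Agent.GT.Loc

open Fermat.Agent.GR Fermat.Agent.GR.E Fermat.Agent.GR.D.Vert Fermat.Agent.GT.EMB
  Fermat.Agent.GT.Val Fermat.Agent.GS ModularCurve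

noncomputable section

variable {L L' : Type} [Field L] [Field L'] [Algebra L L']
  {R : ValuationSubring L} [IsDiscreteValuationRing R]
  {R' : ValuationSubring L'} [IsDiscreteValuationRing R']
  {q M0 : ℕ} [NeZero q] [NeZero M0] [NeZero (q * M0)] [NeZero (q ^ 2 * M0)] {ζ : L'ˣ} {ϖ : R}

/-- `MidIn` in concrete terms. -/
def MidInC (R : ValuationSubring L) [IsDiscreteValuationRing R] (R' : ValuationSubring L')
    [IsDiscreteValuationRing R'] (q M0 : ℕ) [NeZero (q * M0)] [NeZero (q ^ 2 * M0)] (ζ : L'ˣ)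
    (ϖ : R) (t : FF L M0) : Prop :=
  letI := algFF L (dvd_q0 q M0)
  letI := algFF L (dvd_sq q M0)
  letI := algFF L (dvd_sq0 q M0)
  MidIn ϖ q (gaussO R (q * M0)) (vfam R R' q M0 ζ) (w1C R q M0) (w2C R q M0) t

/-- "all the nodes of the chart of level `q M0` are regular" (helper61). -/
def NodesReg (R : ValuationSubring L) [IsDiscreteValuationRing R] (q M0 : ℕ) [NeZero (q * M0)]
    (ϖ : R) (t : FF L M0) : Prop :=
  ∀ 𝔫 : Ideal (chart R ({up (dvd_q0 q M0) t} : Set (FF L (q * M0)))), 𝔫.IsMaximal →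
    vert ϖ (gaussO R (q * M0)) (chart R ({up (dvd_q0 q M0) t} : Set (FF L (q * M0)))) ≤ 𝔫 →
    vert ϖ (Ozero' R q M0) (chart R ({up (dvd_q0 q M0) t} : Set (FF L (q * M0)))) ≤ 𝔫 →
    RegNode ϖ (gaussO R (q * M0)) (Ozero' R q M0)
      (chart R ({up (dvd_q0 q M0) t} : Set (FF L (q * M0)))) 𝔫

/-- EXPORT to GLUE, for one chart. -/
theorem export_conc [CharZero L] (C : Ctx R R' q M0 ζ ϖ) (B : BaseHyp R q M0 ϖ) {t : FF L M0}
    (ht : TPar R q M0 ϖ t) (ht0 : t ≠ 0)
    (hred : ∀ a ∈ Ozero R q M0,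
      up (dvd_sq q M0) (nm1C L q M0 a) - a ^ q ∈ (Ozero R q M0).nonunits)
    (M : MidInC R R' q M0 ζ ϖ t) (hnode : NodesReg R q M0 ϖ t) :
    Glue.PointsOK ϖ (vfam R R' q M0 ζ) 0 1 2 (gaussO R (q * M0)) (Ozero' R q M0)
        (phi1C R q M0) (phi2C R q M0) (nm1C L q M0) (nm2C R q M0)
        (chart R ({t0F q t} : Set (FF L (q ^ 2 * M0)))) ∧
      Glue.RegPts ϖ (vfam R R' q M0 ζ) (chart R ({t0F q t} : Set (FF L (q ^ 2 * M0)))) := by
  letI := algFF L (dvd_q0 q M0)
  letI := algFF L (dvd_sq q M0)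
  letI := algFF L (dvd_sq0 q M0)
  haveI := towerC R (dvd_q0 q M0)
  haveI := towerC R (dvd_sq q M0)
  haveI := towerC R (dvd_sq0 q M0)
  haveI := towerC₃ (L := L) (dvd_q0 q M0) (dvd_sq q M0)
  exact Three.export C.irr (three C B ht hred) ht0 M (fun x hx => (chart₁_le C ht hx).1)
    (fun x hx => (chart₁_le C ht hx).2) hnode

end

end Fermat.Agent.GT.Loc
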