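import Fermat.Agent.GT.Loc.Conc.MidC
import Fermat.Agent.GT.Loc.Conc.Main
import Fermat.Agent.GT.Val.Inst.Mid

/-!
GT-LOC, concrete layer, file `MidInst`: ASSEMBLY of `MidInC` for `t = h_r ^ ε`.
-/

set_option autoImplicit false
set_option synthInstance.maxHeartbeats 400000
set_option linter.unusedSectionVars false
set_option linter.style.haveILetI false

namespace Fermat.Agent.GT.Loc

open Fermat.Agent.GR Fermat.Agent.GR.E Fermat.Agent.GR.D.Vert Fermat.Agent.GT.EMB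
  Fermat.Agent.GT.Val Fermat.Agent.GS Fermat.Agent.C36.Unit ModularCurve

noncomputable section

variable {c : BaseCase}

variable {L L' : Type} [Field L] [CharZero L] [Field L'] [Algebra L L']
  {R : ValuationSubring L} [IsDiscreteValuationRing R]
  {R' : ValuationSubring L'} [IsDiscreteValuationRing R']
  {q M0 : ℕ} [NeZero q] [NeZero M0] [NeZero (q * M0)] [NeZero (q ^ 2 * M0)] {ζ : L'ˣ} {ϖ : R}
  {hr : c.r ∣ M0} {hr1 : c.r ∣ q * M0} {hrq : c.r * q ∣ q * M0} {hl1 : c.lvl ∣ q * M0}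
  {hN : c.lvl * q ∣ q * M0} {ε : ℤ}

/-- `τ * s ∈ chart R {τ}` at level `M0`. -/
theorem tau_mul_sF_mem (hl : c.lvl ∣ M0) (hε : ε = 1 ∨ ε = -1) :
    c.tF L hr ^ ε * c.sF L hl ∈ chart R ({c.tF L hr ^ ε} : Set (FF L M0)) := by
  rcases hε with rfl | rfl
  · simp only [zpow_one]
    exact mul_mem (Val.subset_chart (Set.mem_singleton _)) (mem_chart_of_rel c (sF_rel c hr hl))
  · simp only [zpow_neg_one]
    exact inv_mul_mem_chart_of_rel c (tF_ne_zero c hr) (sF_rel c hr hl)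

local notation "τ0" => (c.tF L hr ^ ε : FF L M0)
local notation "τ1" => (c.tF L hr1 ^ ε : FF L (q * M0))
local notation "C1" => chart R ({c.tF L hr1 ^ ε} : Set (FF L (q * M0)))

theorem tau1_mem : τ1 ∈ C1 := Val.subset_chart (Set.mem_singleton _)

/-- the field `MidIn.nc`. -/
theorem nc_conc (C : Ctx R R' q M0 ζ ϖ) (hl : c.lvl ∣ M0) (hε : ε = 1 ∨ ε = -1)
    (U : UnitInt c L q hr1 hrq hl1 hN ε) :
    ∃ (s : FF L M0) (γ : FF L (q * M0)) (k : ℕ), γ ≠ 0 ∧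
      τ0 ^ k * s ∈ chart R ({τ0} : Set (FF L M0)) ∧
      (∃ m : ℕ, algebraMap R (FF L (q * M0)) ϖ ^ m * (τ1 ^ k * γ) ∈ C1) ∧
      (∃ m : ℕ, algebraMap R (FF L (q * M0)) ϖ ^ m * (τ1 ^ k * γ⁻¹) ∈ C1) ∧
      γ ∈ gaussO R (q * M0) ∧ γ⁻¹ ∈ gaussO R (q * M0) ∧
      (wQ L (q ^ 2) M0 (up (dvd_sq0 q M0) s) - up (dvd_sq0 q M0) s) ^ (q - 1) /
        algebraMap R (FF L (q ^ 2 * M0)) ϖ + up (dvd_sq q M0) γ ∈
          (Omid (L := L) R' q M0 ζ).nonunits := by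
  obtain ⟨k, m, h1, h2⟩ := U.exists_gamma0_mem_chart (R := R) C.irr
  refine ⟨c.sF L hl, c.gamma0F q L hN, k + 1, c.gamma0F_ne_zero q L hN, ?_, ⟨m, ?_⟩, ⟨m, ?_⟩,
    (gamma0F_mem c hN).1, (gamma0F_mem c hN).2, nc_congr c C hl hN⟩
  · rw [pow_succ, mul_assoc]
    exact mul_mem (pow_mem (Val.subset_chart (Set.mem_singleton _)) k) (tau_mul_sF_mem hl hε)
  · have e : algebraMap R (FF L (q * M0)) ϖ ^ m * (τ1 ^ (k + 1) * c.gamma0F q L hN) =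
        τ1 * (algebraMap R (FF L (q * M0)) ϖ ^ m * (τ1 ^ k * c.gamma0F q L hN)) := by ring
    rw [e]
    exact mul_mem tau1_mem h1
  · have e : algebraMap R (FF L (q * M0)) ϖ ^ m * (τ1 ^ (k + 1) * (c.gamma0F q L hN)⁻¹) =
        τ1 * (algebraMap R (FF L (q * M0)) ϖ ^ m * (τ1 ^ k * (c.gamma0F q L hN)⁻¹)) := by ring
    rw [e]
    exact mul_mem tau1_mem h2

/-- the field `MidIn.cusp`. -/
theorem cusp_conc (C : Ctx R R' q M0 ζ ϖ) (hqr : q ≠ c.r)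
    (ht : TPar R q M0 ϖ (c.tF L hr ^ ε)) (hε : ε = 1 ∨ ε = -1)
    (U : UnitInt c L q hr1 hrq hl1 hN ε)
    (hS : SatChart2 ϖ (gaussO R (q * M0)) (Ozero' R q M0) C1) :
    ∃ e γ s₁ : FF L (q * M0), e ∈ C1 ∧ e * wQ L q M0 τ1 = τ1 ^ q ∧
      e - 1 ∈ (gaussO R (q * M0)).nonunits ∧ γ ≠ 0 ∧
      (∃ h : s₁ ∈ C1, ∀ 𝔫 : Ideal C1, 𝔫.IsPrime → vert ϖ (gaussO R (q * M0)) C1 ≤ 𝔫 →
        (⟨τ1, Val.subset_chart rfl⟩ : C1) ∈ 𝔫 → (⟨s₁, h⟩ : C1) ∉ 𝔫) ∧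
      (∃ m : ℕ, algebraMap R (FF L (q * M0)) ϖ ^ m * (s₁ * γ) ∈ C1) ∧
      (∃ m : ℕ, algebraMap R (FF L (q * M0)) ϖ ^ m * (s₁ * γ⁻¹) ∈ C1) ∧
      γ ∈ gaussO R (q * M0) ∧ γ⁻¹ ∈ gaussO R (q * M0) ∧
      (wQ L (q ^ 2) M0 (up (dvd_sq0 q M0) τ0) / up (dvd_sq0 q M0) τ0 - 1) ^ (q - 1) /
        algebraMap R (FF L (q ^ 2 * M0)) ϖ + up (dvd_sq q M0) γ ∈
          (Omid (L := L) R' q M0 ζ).nonunits := by
  have hu := isUnit_r (c := c) C hqr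
  obtain ⟨k, m, h1, h2⟩ := U.exists_gammaT_mem_chart (R := R) C.irr
  have hρ := rhoF_mem (hl1 := hl1) (hN := hN) (hr1 := hr1) ht hu hε
  have hw : wQ L q M0 τ1 = c.tVF L q hrq ^ ε := by
    rw [map_zpow₀, (wQ_tF c C hr hr1 hrq).1]
  have hV0 : c.tVF L q hrq ^ ε ≠ 0 := zpow_ne_zero _ (tVF_ne_zero c hrq)
  refine ⟨τ1 ^ q / c.tVF L q hrq ^ ε, c.gammaTF q L hN,
    rhoF c L q hl1 hN ε ^ k, ea_mem_chart C ht hε U hS, ?_, ea_sub_one_mem ht hε,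
    c.gammaTF_ne_zero q L hN, ⟨pow_mem hρ k, ?_⟩, ⟨m, h1⟩, ⟨m, h2⟩, (gammaTF_mem c hN).1,
    (gammaTF_mem c hN).2, cusp_congr c C hr hN ε hε⟩
  · rw [hw, div_mul_cancel₀ _ hV0]
  · intro 𝔫 h𝔫 hv hτ hmem
    have h3 : (⟨rhoF c L q hl1 hN ε, hρ⟩ : C1) ^ k ∈ 𝔫 := hmem
    exact rhoF_not_mem C ht hu hε hρ 𝔫 h𝔫 hv hτ (h𝔫.mem_of_pow_mem k h3)

set_option maxHeartbeats 1000000 in
theorem midInC (C : Ctx R R' q M0 ζ ϖ) (hqr : q ≠ c.r) (hl : c.lvl ∣ M0)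
    (ht : TPar R q M0 ϖ (c.tF L hr ^ ε)) (hε : ε = 1 ∨ ε = -1)
    (U : UnitInt c L q hr1 hrq hl1 hN ε)
    (hS : SatChart2 ϖ (gaussO R (q * M0)) (Ozero' R q M0) C1) :
    MidInC R R' q M0 ζ ϖ (c.tF L hr ^ ε) := by
  have hup : up (dvd_q0 q M0) (c.tF L hr ^ ε) = c.tF L hr1 ^ ε := up_tau
  have h1 := nc_conc (hr := hr) C hl hε U
  have h2 := cusp_conc (hr := hr) C hqr ht hε U hS
  rw [← hup] at h1 h2
  letI := algFF L (dvd_q0 q M0)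
  letI := algFF L (dvd_sq q M0)
  letI := algFF L (dvd_sq0 q M0)
  exact ⟨C.prime.one_lt, ⟨TF L q M0, TF_ne_zero C, fun x hx => div_TF_mem_Omid C hx,
    TF_pow_div_unif_mem C⟩, h1, h2⟩

end

end Fermat.Agent.GT.Loc
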