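import Fermat.Agent.GT.Loc.Conc.MidB
import Fermat.Agent.C36.Unit.CuspInt

/-!
GT-LOC, concrete layer, file `UInt`: `UnitInt` for `L : IntermediateField ℚ Qb`, from UNIT
(`exists_isIntegral_gamma0F`, `exists_isIntegral_gammaTF`, `isIntegral_ea`).
-/

set_option autoImplicit false
set_option synthInstance.maxHeartbeats 400000
set_option maxHeartbeats 1000000

namespace Fermat.Agent.GT.Loc

open Fermat.Agent.GR Fermat.Agent.GR.E Fermat.Agent.C36.Unit ModularCurve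

/-- `rcases hε with rfl | rfl`; `zpow_one`, `zpow_neg_one`; `rhoF` unfolds by `if_pos rfl` /
`if_neg (by decide)`. -/
theorem unitInt (c : BaseCase) (L : IntermediateField ℚ Qb) {q M0 : ℕ} [NeZero q]
    [NeZero (q * M0)] (hq : q.Prime) (hqr : q ≠ c.r) (hqM : ¬ q ∣ M0) (hl : c.lvl ∣ M0)
    (hr1 : c.r ∣ q * M0) (hrq : c.r * q ∣ q * M0) (hl1 : c.lvl ∣ q * M0)
    (hN : c.lvl * q ∣ q * M0) (ε : ℤ) (hε : ε = 1 ∨ ε = -1) :
    UnitInt c L q hr1 hrq hl1 hN ε := by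
  obtain ⟨k0, a1, a2, a3, a4⟩ := c.exists_isIntegral_gamma0F q hq hqr M0 hqM hl hr1 hN L
  obtain ⟨kT, b1, b2, b3, b4⟩ := c.exists_isIntegral_gammaTF q hq hqr M0 hqM hl hr1 hl1 hN L
  have e := c.isIntegral_ea q hq hqr L hr1 hrq ε hε
  rcases hε with rfl | rfl
  · refine ⟨⟨k0, ?_, ?_⟩, ⟨kT, ?_, ?_⟩, e⟩
    · rw [zpow_one]; exact a1
    · rw [zpow_one]; exact a2
    · rw [zpow_one, rhoF, if_pos rfl]; exact b1
    · rw [zpow_one, rhoF, if_pos rfl]; exact b2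
  · refine ⟨⟨k0, ?_, ?_⟩, ⟨kT, ?_, ?_⟩, e⟩
    · rw [zpow_neg_one]; exact a3
    · rw [zpow_neg_one]; exact a4
    · rw [zpow_neg_one, rhoF, if_neg (by norm_num)]; exact b3
    · rw [zpow_neg_one, rhoF, if_neg (by norm_num)]; exact b4

end Fermat.Agent.GT.Loc
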