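import Fermat.Agent.GT.Loc.Three
import Fermat.Agent.GT.Val.Inst.Defs

/-!
GT-LOC, concrete layer, file `Defs`: the two degeneracy maps and the two norms between
`FF L (q² M0)` and `FF L (q M0)`, as plain definitions (no `letI` in the statements of the users).

* `w1C = w_q`, `w2C = w_{q²}` as `R`-algebra automorphisms;
* `phi1C` = inclusion, `phi2C = w2C ∘ incl ∘ w1C` (`= f(X) ↦ f(X^q)`);
* `nm1C` = field norm, `nm2C = w1C ∘ nm1C ∘ w2C`.
-/

set_option autoImplicit false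
set_option synthInstance.maxHeartbeats 400000

namespace Fermat.Agent.GT.Loc

open Fermat.Agent.GR Fermat.Agent.GR.E Fermat.Agent.GR.D.Vert Fermat.Agent.GT.EMB
  Fermat.Agent.GT.Val ModularCurve

noncomputable section

variable {L : Type} [Field L] (R : ValuationSubring L)

theorem towerC {N N' : ℕ} (h : N ∣ N') :
    letI := algFF L h
    IsScalarTower R (FF L N) (FF L N') :=
  letI := algFF L h
  IsScalarTower.of_algebraMap_eq fun _ => rfl

theorem towerC₃ {N N' N'' : ℕ} (h : N ∣ N') (h' : N' ∣ N'') :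
    letI := algFF L h
    letI := algFF L h'
    letI := algFF L (h.trans h')
    IsScalarTower (FF L N) (FF L N') (FF L N'') :=
  letI := algFF L h
  letI := algFF L h'
  letI := algFF L (h.trans h')
  IsScalarTower.of_algebraMap_eq fun _ => Subtype.ext rfl

/-- restriction of scalars from `L` to `R` (generic level: elaboration at the level `q ^ 2 * M0` is
very slow). -/
def resAut (N : ℕ) (w : FF L N ≃ₐ[L] FF L N) : FF L N ≃ₐ[R] FF L N :=
  w.restrictScalars R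

/-- `w_q` on `FF L (q M0)`. -/
def w1C (q M0 : ℕ) [NeZero (q * M0)] : FF L (q * M0) ≃ₐ[R] FF L (q * M0) :=
  resAut R (q * M0) (wQ L q M0)

/-- `w_{q²}` on `FF L (q² M0)`. -/
def w2C (q M0 : ℕ) [NeZero (q ^ 2 * M0)] : FF L (q ^ 2 * M0) ≃ₐ[R] FF L (q ^ 2 * M0) :=
  resAut R (q ^ 2 * M0) (wQ L (q ^ 2) M0)

/-- the inclusion. -/
def phi1C (q M0 : ℕ) : FF L (q * M0) →ₐ[R] FF L (q ^ 2 * M0) :=
  letI := algFF L (dvd_sq q M0)
  haveI := towerC R (dvd_sq q M0)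
  phiOne R (FF L (q * M0)) (FF L (q ^ 2 * M0))

/-- `f(X) ↦ f(X^q)`. -/
def phi2C (q M0 : ℕ) [NeZero (q * M0)] [NeZero (q ^ 2 * M0)] :
    FF L (q * M0) →ₐ[R] FF L (q ^ 2 * M0) :=
  letI := algFF L (dvd_sq q M0)
  haveI := towerC R (dvd_sq q M0)
  phiTwo (w1C R q M0) (w2C R q M0)

/-- the field norm. -/
def nm1C (L : Type) [Field L] (q M0 : ℕ) : FF L (q ^ 2 * M0) →* FF L (q * M0) :=
  letI := algFF L (dvd_sq q M0)
  nmOne (FF L (q * M0)) (FF L (q ^ 2 * M0))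

/-- the norm along `f(X) ↦ f(X^q)`. -/
def nm2C (q M0 : ℕ) [NeZero (q * M0)] [NeZero (q ^ 2 * M0)] :
    FF L (q ^ 2 * M0) →* FF L (q * M0) :=
  letI := algFF L (dvd_sq q M0)
  nmTwo (w1C R q M0) (w2C R q M0)

variable {R}

@[simp] theorem w1C_apply {q M0 : ℕ} [NeZero (q * M0)] (x : FF L (q * M0)) :
    w1C R q M0 x = wQ L q M0 x := rfl

@[simp] theorem w2C_apply {q M0 : ℕ} [NeZero (q ^ 2 * M0)] (x : FF L (q ^ 2 * M0)) :
    w2C R q M0 x = wQ L (q ^ 2) M0 x := rfl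

@[simp] theorem phi1C_apply {q M0 : ℕ} (x : FF L (q * M0)) :
    phi1C R q M0 x = up (dvd_sq q M0) x := rfl

theorem phi2C_apply {q M0 : ℕ} [NeZero (q * M0)] [NeZero (q ^ 2 * M0)] (x : FF L (q * M0)) :
    phi2C R q M0 x = wQ L (q ^ 2) M0 (up (dvd_sq q M0) (wQ L q M0 x)) := rfl

theorem nm1C_apply {q M0 : ℕ} (x : FF L (q ^ 2 * M0)) :
    nm1C L q M0 x = @Algebra.norm (FF L (q * M0)) (FF L (q ^ 2 * M0)) _ _
      (algFF L (dvd_sq q M0)) x := rfl

theorem nm2C_apply {q M0 : ℕ} [NeZero (q * M0)] [NeZero (q ^ 2 * M0)] (x : FF L (q ^ 2 * M0)) :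
    nm2C R q M0 x = wQ L q M0 (nm1C L q M0 (wQ L (q ^ 2) M0 x)) := rfl

end

end Fermat.Agent.GT.Loc
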