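import Fermat.Agent.GT.Loc.Conc.Defs
import Fermat.Agent.GT.Brg.NormL
import Fermat.Agent.GT.Val.Inst.NormCompat

/-!
GT-LOC, concrete layer, file `Adapt`: the maps `phi1C phi2C nm1C nm2C` of LOC are the maps
`Brg.phi1 Brg.phi2 Brg.nm1 Brg.nm2` of `Brg/NormL.lean` (as functions).
-/

set_option autoImplicit false
set_option synthInstance.maxHeartbeats 400000

namespace Fermat.Agent.GT.Loc

open Fermat.Agent.GR Fermat.Agent.GR.E Fermat.Agent.GR.D.Vert Fermat.Agent.GT.EMB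
  Fermat.Agent.GT.Val ModularCurve

noncomputable section

variable {L : Type} [Field L] {R : ValuationSubring L} {q M0 : ℕ}

theorem phi1C_eq (x : FF L (q * M0)) : phi1C R q M0 x = Brg.phi1 L q M0 x := by
  apply Subtype.ext
  rw [phi1C_apply, coe_up, Brg.coe_phi1]

theorem adapt_sq_qExpand [NeZero q] [NeZero (q * M0)] [NeZero (q ^ 2 * M0)] (ι : L →+* ℂ)
    (hq : q.Prime) (hqM : ¬ q ∣ M0) (x : FF L (q * M0)) :
    wQ L (q ^ 2) M0 (Brg.itwK L q M0 x) = up (dvd_sq q M0) (wQ L q M0 x) := by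
  apply Subtype.ext
  rw [coe_up]
  exact wQ_sq_qExpand ι hq hqM x (Brg.qExpand_mem_sq L q M0 x.2)

theorem phi2C_eq [NeZero q] [NeZero (q * M0)] [NeZero (q ^ 2 * M0)] (ι : L →+* ℂ) (hq : q.Prime)
    (hqM : ¬ q ∣ M0) (x : FF L (q * M0)) : phi2C R q M0 x = Brg.phi2 L q M0 x := by
  have hcop2 : (q ^ 2).Coprime M0 :=
    Nat.Coprime.pow_left 2 ((Nat.Prime.coprime_iff_not_dvd hq).2 hqM)
  rw [phi2C_apply, ← adapt_sq_qExpand ι hq hqM, wQ_wQ ι _ _ hcop2, Brg.phi2_apply]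

theorem nm1C_eq (x : FF L (q ^ 2 * M0)) : nm1C L q M0 x = Brg.nm1 L q M0 x := by
  rw [nm1C_apply]
  unfold Brg.nm1 Brg.istdK algFF
  rfl

theorem nm1_wQ [NeZero q] [NeZero (q * M0)] [NeZero (q ^ 2 * M0)] (ι : L →+* ℂ) (hq : q.Prime)
    (hqM : ¬ q ∣ M0) (x : FF L (q ^ 2 * M0)) :
    Brg.nm1 L q M0 (wQ L (q ^ 2) M0 x) = wQ L q M0 (Brg.nm2 L q M0 x) := by
  have he : (Brg.istdK L q M0).comp
      ((wQ L q M0).toRingEquiv : FF L (q * M0) →+* FF L (q * M0)) =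
      ((wQ L (q ^ 2) M0).toRingEquiv : FF L (q ^ 2 * M0) →+* FF L (q ^ 2 * M0)).comp
        (Brg.itwK L q M0) := by
    refine RingHom.ext fun f => Subtype.ext ?_
    have h1 := congrArg (fun y : FF L (q ^ 2 * M0) => (y : LaurentSeries L))
      (adapt_sq_qExpand ι hq hqM f)
    simp only [coe_up] at h1
    rw [RingHom.comp_apply, Brg.coe_istdK]
    exact h1.symm
  have h2 := @Algebra.norm_eq_of_equiv_equiv (FF L (q * M0)) (FF L (q ^ 2 * M0))
    (FF L (q * M0)) (FF L (q ^ 2 * M0)) _ _ _ _ (Brg.itwK L q M0).toAlgebra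
    (Brg.istdK L q M0).toAlgebra (wQ L q M0).toRingEquiv (wQ L (q ^ 2) M0).toRingEquiv he x
  have h3 : Brg.nm2 L q M0 x = (wQ L q M0).toRingEquiv.symm
      (Brg.nm1 L q M0 ((wQ L (q ^ 2) M0).toRingEquiv x)) := h2
  rw [h3]
  exact ((wQ L q M0).toRingEquiv.apply_symm_apply _).symm

theorem nm2C_eq [NeZero q] [NeZero (q * M0)] [NeZero (q ^ 2 * M0)] (ι : L →+* ℂ) (hq : q.Prime)
    (hqM : ¬ q ∣ M0) (x : FF L (q ^ 2 * M0)) : nm2C R q M0 x = Brg.nm2 L q M0 x := by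
  have hcop : q.Coprime M0 := (Nat.Prime.coprime_iff_not_dvd hq).2 hqM
  rw [nm2C_apply, nm1C_eq, nm1_wQ ι hq hqM, wQ_wQ ι _ _ hcop]

/-! ### equalities of maps -/

theorem nm1C_eq_nm1 : nm1C L q M0 = Brg.nm1 L q M0 := MonoidHom.ext nm1C_eq

theorem nm2C_eq_nm2 [NeZero q] [NeZero (q * M0)] [NeZero (q ^ 2 * M0)] (ι : L →+* ℂ)
    (hq : q.Prime) (hqM : ¬ q ∣ M0) : nm2C R q M0 = Brg.nm2 L q M0 :=
  MonoidHom.ext (nm2C_eq ι hq hqM)

theorem phi1C_eq_val : phi1C R q M0 = Val.phi1 R q M0 :=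
  AlgHom.ext fun x => by
    rw [phi1C_apply]
    rfl

theorem phi2C_eq_val [NeZero q] [NeZero (q * M0)] [NeZero (q ^ 2 * M0)] (ι : L →+* ℂ)
    (hq : q.Prime) (hqM : ¬ q ∣ M0) : phi2C R q M0 = Val.phi2 R q M0 :=
  AlgHom.ext fun x => by
    rw [phi2C_eq ι hq hqM]
    apply Subtype.ext
    rw [Brg.coe_phi2]
    rfl

theorem val_phi1_eq (x : FF L (q * M0)) : Val.phi1 R q M0 x = Brg.phi1 L q M0 x := by
  rw [← phi1C_eq_val, phi1C_eq]

theorem val_phi2_eq [NeZero q] (x : FF L (q * M0)) :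
    Val.phi2 R q M0 x = Brg.phi2 L q M0 x := by
  apply Subtype.ext
  rw [Brg.coe_phi2]
  rfl

end

section NormHyp

variable {L : IntermediateField ℚ Qb} {L' : Type} [Field L'] [Algebra L L']
  {R : ValuationSubring L} [IsDiscreteValuationRing R]
  {R' : ValuationSubring L'} [IsDiscreteValuationRing R']
  {q M0 : ℕ} [NeZero q] [NeZero M0] [NeZero (q * M0)] [NeZero (q ^ 2 * M0)] {ζ : L'ˣ} {ϖ : R}

/-- `NormHyp` of VAL for the norms of `Brg/NormL.lean`. -/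
theorem normHyp_nm (C : Ctx R R' q M0 ζ ϖ) (e : L' →+* Qb)
    (he : e.comp (algebraMap L L') = algebraMap L Qb) :
    NormHyp q M0 ζ (Brg.nm1 L q M0) (Brg.nm2 L q M0) := by
  have hroot' : IsPrimitiveRoot (Units.map (e : L' →* Qb) ζ) q :=
    C.root.map_of_injective (Units.map_injective e.injective)
  refine normHyp_of_compat C e (fun x => ?_) (fun x => ?_)
  · rw [he]
    exact Brg.mapFF_nm1 L C.prime (NeZero.ne M0) C.ndvd x
  · rw [he]
    exact Brg.coeffMap_nm2 L C.prime (NeZero.ne M0) C.ndvd _ hroot' x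

end NormHyp

end Fermat.Agent.GT.Loc
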