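import Fermat.Agent.C36.Unit.Case
import Fermat.Agent.GT.Val.Tower.Basic

/-!
GT-LOC, concrete layer, file `CuspNV`: the denominator `s₁` of `γ_t^{±1}` does not vanish at the
cusps (pure algebra), and the functions `s, V s, s⁻¹, (V s)⁻¹` lie in the chart.

* chart `t`   : `s ^ r = τ * w(s)`, `τ ∈ 𝔫`  ⟹ `s ∈ 𝔫`, `rn s ∉ 𝔫`   (needs `r ∉ 𝔫`);
* chart `1/t` : `τ = x * w'(x)` (`x = s⁻¹`, `w'(x) = x^(r-1) w(1/x)`), `τ ∈ 𝔫` ⟹ `rn' x ∉ 𝔫`
  (no condition), `rn' x = x^(deg rn) rn (1/x)`.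
-/

set_option autoImplicit false
set_option linter.unusedSectionVars false

namespace Fermat.Agent.GT.Loc.CuspNV

open Fermat.Agent.C36.Unit Fermat.Agent.GR.E Fermat.Agent.GT.Val

/-- `w'(x) = x^(r-1) w(1/x)` -/
def wv' (c : BaseCase) {A : Type*} [CommRing A] (x : A) : A :=
  match c with
  | .two => 1 + 16 * x
  | .three => 1 + 9 * x + 27 * x ^ 2

/-- `rn'(x) = x^(deg rn) rn(1/x)` -/
def rn' (c : BaseCase) {A : Type*} [CommRing A] (x : A) : A :=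
  match c with
  | .two => 1 + 32 * x
  | .three => (1 + 9 * x) ^ 2

/-- degree of `rn` -/
def dn : BaseCase → ℕ
  | .two => 1
  | .three => 2

theorem map_wv' (c : BaseCase) {A B : Type*} [CommRing A] [CommRing B] (f : A →+* B) (x : A) :
    f (wv' c x) = wv' c (f x) := by cases c <;> simp [wv', map_ofNat]

theorem map_rn' (c : BaseCase) {A B : Type*} [CommRing A] [CommRing B] (f : A →+* B) (x : A) :
    f (rn' c x) = rn' c (f x) := by cases c <;> simp [rn', map_ofNat]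

section Field

variable {K : Type*} [Field K]

/-- `w'(s⁻¹) = w(s) / s^(r-1)` -/
theorem wv'_inv (c : BaseCase) {s : K} (hs : s ≠ 0) : wv' c s⁻¹ = c.wv s / s ^ (c.r - 1) := by
  cases c
  · simp only [wv', BaseCase.wv, BaseCase.r]
    field_simp
    ring
  · simp only [wv', BaseCase.wv, BaseCase.r]
    field_simp
    ring

/-- `rn'(s⁻¹) = rn(s) / s^dn` -/
theorem rn'_inv (c : BaseCase) {s : K} (hs : s ≠ 0) : rn' c s⁻¹ = c.rn s / s ^ dn c := by
  cases c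
  · simp only [rn', BaseCase.rn, dn]
    field_simp
  · simp only [rn', BaseCase.rn, dn]
    field_simp

/-- the equation of the chart `1/t`: `t⁻¹ = x w'(x)`, `x = s⁻¹`. -/
theorem inv_eq_mul_wv' (c : BaseCase) {s t : K} (hs : s ≠ 0) (ht : t ≠ 0)
    (h : s ^ c.r = t * c.wv s) : t⁻¹ = s⁻¹ * wv' c s⁻¹ := by
  rw [wv'_inv c hs]
  have hr : c.r = (c.r - 1) + 1 := by cases c <;> rfl
  have h' : s ^ (c.r - 1) * s = t * c.wv s := by rw [← pow_succ, ← hr, h]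
  field_simp
  rw [mul_comm, h', mul_comm]

end Field

section Prime

variable {C : Type*} [CommRing C] {𝔫 : Ideal C}

/-- two distinct primes cannot both lie in a proper ideal. -/
theorem natCast_notMem (h𝔫 : 𝔫 ≠ ⊤) {q r : ℕ} (hq : q.Prime) (hr : r.Prime) (hqr : q ≠ r)
    (hq𝔫 : (q : C) ∈ 𝔫) : (r : C) ∉ 𝔫 := by
  intro hr𝔫
  have hc : IsCoprime (q : ℤ) (r : ℤ) :=
    Nat.isCoprime_iff_coprime.2 ((Nat.coprime_primes hq hr).2 hqr)
  obtain ⟨a, b, hab⟩ := hc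
  apply h𝔫
  rw [Ideal.eq_top_iff_one]
  have h1 : ((a : C) * (q : C) + (b : C) * (r : C)) = 1 := by
    have := congrArg (Int.cast : ℤ → C) hab
    push_cast at this
    exact this
  rw [← h1]
  exact 𝔫.add_mem (𝔫.mul_mem_left _ hq𝔫) (𝔫.mul_mem_left _ hr𝔫)

variable [h𝔫 : 𝔫.IsPrime]

/-- chart `t`: `s` vanishes where `τ` vanishes. -/
theorem mem_of_pow_eq (c : BaseCase) {τ s : C} (hτ : τ ∈ 𝔫) (hs : s ^ c.r = τ * c.wv s) :
    s ∈ 𝔫 := by
  apply h𝔫.mem_of_pow_mem c.r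
  rw [hs]
  exact 𝔫.mul_mem_right _ hτ

/-- chart `t`: `rn s` does not vanish where `s` vanishes. -/
theorem rn_notMem_of_mem (c : BaseCase) (hr : (c.r : C) ∉ 𝔫) {s : C} (hs : s ∈ 𝔫) :
    c.rn s ∉ 𝔫 := by
  cases c
  · intro h
    have h32 : (2 : C) ^ 5 ∈ 𝔫 := by
      have : (2 : C) ^ 5 = (s + 32) - s := by ring
      rw [this]
      exact 𝔫.sub_mem h hs
    apply hr
    have := h𝔫.mem_of_pow_mem 5 h32
    simpa [BaseCase.r] using this
  · intro h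
    have h1 : s + 9 ∈ 𝔫 := h𝔫.mem_of_pow_mem 2 h
    have h9 : (3 : C) ^ 2 ∈ 𝔫 := by
      have : (3 : C) ^ 2 = (s + 9) - s := by ring
      rw [this]
      exact 𝔫.sub_mem h1 hs
    apply hr
    have := h𝔫.mem_of_pow_mem 2 h9
    simpa [BaseCase.r] using this

/-- chart `t`: `rn s` does not vanish at the cusp `τ = 0`. -/
theorem rn_notMem (c : BaseCase) (hr : (c.r : C) ∉ 𝔫) {τ s : C} (hτ : τ ∈ 𝔫)
    (hs : s ^ c.r = τ * c.wv s) : c.rn s ∉ 𝔫 :=
  rn_notMem_of_mem c hr (mem_of_pow_eq c hτ hs)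

/-- `τV ≡ τ^q`, `τ ∈ 𝔫` ⟹ `τV ∈ 𝔫`. -/
theorem mem_of_sub_pow_mem {q : ℕ} (hq : q ≠ 0) {τ τV : C} (hτ : τ ∈ 𝔫) (hV : τV - τ ^ q ∈ 𝔫) :
    τV ∈ 𝔫 := by
  have : τV = (τV - τ ^ q) + τ ^ q := by ring
  rw [this]
  exact 𝔫.add_mem hV (𝔫.pow_mem_of_mem hτ q (Nat.pos_of_ne_zero hq))

/-- chart `1/t`: `rn' x` does not vanish at the cusps `τ = x w'(x) = 0`. -/
theorem rn'_notMem (c : BaseCase) {τ x : C} (hτ : τ ∈ 𝔫) (hx : τ = x * wv' c x) :
    rn' c x ∉ 𝔫 := by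
  have h1 : (1 : C) ∉ 𝔫 := fun h => h𝔫.ne_top ((Ideal.eq_top_iff_one _).2 h)
  rw [hx] at hτ
  cases c
  · intro h
    rcases h𝔫.mem_or_mem hτ with h0 | h0
    · apply h1
      have : (1 : C) = (1 + 32 * x) - 32 * x := by ring
      rw [this]
      exact 𝔫.sub_mem h (𝔫.mul_mem_left _ h0)
    · apply h1
      have : (1 : C) = 2 * (1 + 16 * x) - (1 + 32 * x) := by ring
      rw [this]
      exact 𝔫.sub_mem (𝔫.mul_mem_left _ h0) h
  · intro h
    have h' : 1 + 9 * x ∈ 𝔫 := h𝔫.mem_of_pow_mem 2 h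
    rcases h𝔫.mem_or_mem hτ with h0 | h0
    · apply h1
      have : (1 : C) = (1 + 9 * x) - 9 * x := by ring
      rw [this]
      exact 𝔫.sub_mem h' (𝔫.mul_mem_left _ h0)
    · apply h1
      have : (1 : C) = 3 * (1 + 9 * x + 27 * x ^ 2) - (2 + 9 * x) * (1 + 9 * x) := by ring
      rw [this]
      exact 𝔫.sub_mem (𝔫.mul_mem_left _ h0) (𝔫.mul_mem_left _ h')

/-- **chart `t`**: `s₁ = (rn s * rn sV)^k` does not vanish at the cusp `τ = 0`. -/
theorem s₁_notMem (c : BaseCase) (hr : (c.r : C) ∉ 𝔫) {q : ℕ} (hq : q ≠ 0) {τ τV s sV : C}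
    (hτ : τ ∈ 𝔫) (hV : τV - τ ^ q ∈ 𝔫) (hs : s ^ c.r = τ * c.wv s)
    (hsV : sV ^ c.r = τV * c.wv sV) (k : ℕ) : (c.rn s * c.rn sV) ^ k ∉ 𝔫 := by
  intro h
  rcases h𝔫.mem_or_mem (h𝔫.mem_of_pow_mem k h) with h0 | h0
  · exact rn_notMem c hr hτ hs h0
  · exact rn_notMem c hr (mem_of_sub_pow_mem hq hτ hV) hsV h0

/-- **chart `1/t`**: `s₁ = (rn' x * rn' xV)^k` does not vanish at the cusps `τ = 0`. -/
theorem s₁'_notMem (c : BaseCase) {q : ℕ} (hq : q ≠ 0) {τ τV x xV : C}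
    (hτ : τ ∈ 𝔫) (hV : τV - τ ^ q ∈ 𝔫) (hx : τ = x * wv' c x)
    (hxV : τV = xV * wv' c xV) (k : ℕ) : (rn' c x * rn' c xV) ^ k ∉ 𝔫 := by
  intro h
  rcases h𝔫.mem_or_mem (h𝔫.mem_of_pow_mem k h) with h0 | h0
  · exact rn'_notMem c hτ hx h0
  · exact rn'_notMem c (mem_of_sub_pow_mem hq hτ hV) hxV h0

end Prime

section Mem

variable {R : Type*} [CommRing R] [IsDomain R] [IsDiscreteValuationRing R]
  {F : Type*} [Field F] [Algebra R F] {S : Set F}

open Polynomial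

theorem isIntegral_of_sq {A : Type*} [CommRing A] [Algebra A F] {x : F} (a b : A)
    (h : x ^ 2 = algebraMap A F a * x + algebraMap A F b) : IsIntegral A x := by
  refine ⟨X ^ 2 - C a * X - C b, by monicity!, ?_⟩
  simp only [eval₂_sub, eval₂_mul, eval₂_pow, eval₂_X, eval₂_C]
  rw [h]
  ring

theorem isIntegral_of_cube {A : Type*} [CommRing A] [Algebra A F] {x : F} (a b d : A)
    (h : x ^ 3 = algebraMap A F a * x ^ 2 + algebraMap A F b * x + algebraMap A F d) :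
    IsIntegral A x := by
  refine ⟨X ^ 3 - C a * X ^ 2 - C b * X - C d, by monicity!, ?_⟩
  simp only [eval₂_sub, eval₂_mul, eval₂_pow, eval₂_X, eval₂_C]
  rw [h]
  ring

/-- chart `t`: `s` is integral over `R[τ]`. -/
theorem mem_chart_of_pow_eq (c : BaseCase) {τ s : F} (hτ : τ ∈ chart R S)
    (hs : s ^ c.r = τ * c.wv s) : s ∈ chart R S := by
  apply Val.chart_closed
  set T : chart R S := ⟨τ, hτ⟩ with hT
  have h1 : algebraMap (chart R S) F T = τ := rfl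
  cases c
  · apply isIntegral_of_sq T (16 * T)
    simp only [BaseCase.r, BaseCase.wv] at hs
    rw [hs, map_mul, h1, map_ofNat]
    ring
  · apply isIntegral_of_cube T (9 * T) (27 * T)
    simp only [BaseCase.r, BaseCase.wv] at hs
    rw [hs, map_mul, map_mul, h1, map_ofNat, map_ofNat]
    ring

/-- chart `1/t`: `x = s⁻¹` is integral over `R[τ]` as soon as `r` is a unit of `R`. -/
theorem mem_chart_of_eq_mul (c : BaseCase) (hr : IsUnit (c.r : R)) {τ x : F}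
    (hτ : τ ∈ chart R S) (hx : τ = x * wv' c x) : x ∈ chart R S := by
  apply Val.chart_closed
  obtain ⟨u, hu⟩ := hr
  set T : chart R S := ⟨τ, hτ⟩ with hT
  -- `v = 1 / r`
  set v : chart R S := algebraMap R (chart R S) (↑u⁻¹ : R) with hv
  have h1 : algebraMap (chart R S) F T = τ := rfl
  have hvr : algebraMap (chart R S) F v * (c.r : F) = 1 := by
    rw [hv, ← IsScalarTower.algebraMap_apply, ← map_natCast (algebraMap R F), ← map_mul, ← hu,
      Units.inv_mul, map_one]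
  cases c
  · have hv2 : algebraMap (chart R S) F v * 2 = 1 := by simpa [BaseCase.r] using hvr
    apply isIntegral_of_sq (- v ^ 4) (v ^ 4 * T)
    rw [map_neg, map_mul, map_pow, h1]
    simp only [wv'] at hx
    set V := algebraMap (chart R S) F v
    have h16 : V ^ 4 * 16 = 1 := by
      have : V ^ 4 * 16 = (V * 2) ^ 4 := by ring
      rw [this, hv2, one_pow]
    rw [hx]
    linear_combination (- x ^ 2) * h16
  · have hv3 : algebraMap (chart R S) F v * 3 = 1 := by simpa [BaseCase.r] using hvr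
    apply isIntegral_of_cube (- v) (- v ^ 3) (v ^ 3 * T)
    rw [map_neg, map_neg, map_mul, map_pow, h1]
    simp only [wv'] at hx
    set V := algebraMap (chart R S) F v
    have h27 : V ^ 3 * 27 = 1 := by
      have : V ^ 3 * 27 = (V * 3) ^ 3 := by ring
      rw [this, hv3, one_pow]
    have h9 : V ^ 3 * 9 = V := by
      have : V ^ 3 * 9 = V * (V * 3) ^ 2 := by ring
      rw [this, hv3, one_pow, mul_one]
    rw [hx]
    linear_combination (- x ^ 3) * h27 - x ^ 2 * h9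

/-- polynomial expressions stay in the chart. -/
theorem rn_mem_chart (c : BaseCase) {s : F} (hs : s ∈ chart R S) : c.rn s ∈ chart R S := by
  have := (c.map_rn (chart R S).val.toRingHom ⟨s, hs⟩)
  have h2 : c.rn s = (chart R S).val.toRingHom (c.rn (⟨s, hs⟩ : chart R S)) := this.symm
  rw [h2]
  exact (c.rn (⟨s, hs⟩ : chart R S)).2

theorem rn'_mem_chart (c : BaseCase) {s : F} (hs : s ∈ chart R S) : rn' c s ∈ chart R S := by
  have := (map_rn' c (chart R S).val.toRingHom ⟨s, hs⟩)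
  have h2 : rn' c s = (chart R S).val.toRingHom (rn' c (⟨s, hs⟩ : chart R S)) := this.symm
  rw [h2]
  exact (rn' c (⟨s, hs⟩ : chart R S)).2

/-! ### the same statements for elements of a subalgebra `C ⊆ F` given by their values in `F` -/

variable {C : Subalgebra R F} {𝔫 : Ideal C} [h𝔫 : 𝔫.IsPrime]

theorem coe_wv (c : BaseCase) (s : C) : ((c.wv s : C) : F) = c.wv (s : F) :=
  c.map_wv C.val.toRingHom s

theorem coe_rn (c : BaseCase) (s : C) : ((c.rn s : C) : F) = c.rn (s : F) :=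
  c.map_rn C.val.toRingHom s

theorem coe_wv' (c : BaseCase) (s : C) : ((wv' c s : C) : F) = wv' c (s : F) :=
  map_wv' c C.val.toRingHom s

theorem coe_rn' (c : BaseCase) (s : C) : ((rn' c s : C) : F) = rn' c (s : F) :=
  map_rn' c C.val.toRingHom s

/-- **chart `t`**, subalgebra form. -/
theorem s₁_notMem_sub (c : BaseCase) (hr : (c.r : C) ∉ 𝔫) {q : ℕ} (hq : q ≠ 0) {τ τV s sV : F}
    (hτC : τ ∈ C) (hτVC : τV ∈ C) (hsC : s ∈ C) (hsVC : sV ∈ C) (hτ : (⟨τ, hτC⟩ : C) ∈ 𝔫)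
    (hV : ((⟨τV, hτVC⟩ : C) - ⟨τ, hτC⟩ ^ q) ∈ 𝔫) (hs : s ^ c.r = τ * c.wv s)
    (hsV : sV ^ c.r = τV * c.wv sV) (k : ℕ) (h : (c.rn s * c.rn sV) ^ k ∈ C) :
    (⟨(c.rn s * c.rn sV) ^ k, h⟩ : C) ∉ 𝔫 := by
  have key := s₁_notMem (𝔫 := 𝔫) c hr hq hτ hV (s := ⟨s, hsC⟩) (sV := ⟨sV, hsVC⟩)
    (Subtype.ext (by
      rw [Subalgebra.coe_pow, Subalgebra.coe_mul, coe_wv]
      exact hs))
    (Subtype.ext (by
      rw [Subalgebra.coe_pow, Subalgebra.coe_mul, coe_wv]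
      exact hsV)) k
  have he : (⟨(c.rn s * c.rn sV) ^ k, h⟩ : C) =
      (c.rn (⟨s, hsC⟩ : C) * c.rn (⟨sV, hsVC⟩ : C)) ^ k := by
    apply Subtype.ext
    rw [Subalgebra.coe_pow, Subalgebra.coe_mul, coe_rn, coe_rn]
  rw [he]
  exact key

/-- **chart `1/t`**, subalgebra form. -/
theorem s₁'_notMem_sub (c : BaseCase) {q : ℕ} (hq : q ≠ 0) {τ τV x xV : F}
    (hτC : τ ∈ C) (hτVC : τV ∈ C) (hxC : x ∈ C) (hxVC : xV ∈ C) (hτ : (⟨τ, hτC⟩ : C) ∈ 𝔫)
    (hV : ((⟨τV, hτVC⟩ : C) - ⟨τ, hτC⟩ ^ q) ∈ 𝔫) (hx : τ = x * wv' c x)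
    (hxV : τV = xV * wv' c xV) (k : ℕ) (h : (rn' c x * rn' c xV) ^ k ∈ C) :
    (⟨(rn' c x * rn' c xV) ^ k, h⟩ : C) ∉ 𝔫 := by
  have key := s₁'_notMem (𝔫 := 𝔫) c hq hτ hV (x := ⟨x, hxC⟩) (xV := ⟨xV, hxVC⟩)
    (Subtype.ext (by
      rw [Subalgebra.coe_mul, coe_wv']
      exact hx))
    (Subtype.ext (by
      rw [Subalgebra.coe_mul, coe_wv']
      exact hxV)) k
  have he : (⟨(rn' c x * rn' c xV) ^ k, h⟩ : C) =
      (rn' c (⟨x, hxC⟩ : C) * rn' c (⟨xV, hxVC⟩ : C)) ^ k := by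
    apply Subtype.ext
    rw [Subalgebra.coe_pow, Subalgebra.coe_mul, coe_rn', coe_rn']
  rw [he]
  exact key

/-- `r ∉ 𝔫` as soon as `𝔫` contains the image of a nonunit `ϖ` of `R` and `r` is a unit of `R`. -/
theorem natCast_notMem_of_isUnit {r : ℕ} (hr : IsUnit (r : R)) : (r : C) ∉ 𝔫 := by
  intro h
  apply h𝔫.ne_top
  apply Ideal.eq_top_of_isUnit_mem _ h
  have := hr.map (algebraMap R C)
  rwa [map_natCast] at this

end Mem

end Fermat.Agent.GT.Loc.CuspNV
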