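import Fermat.Agent.GT.Loc.Conc.Series
import Fermat.Agent.C36.Unit.GammaT
import Fermat.Agent.GR.D.Top.Param

/-!
GT-LOC, concrete layer, file `Gam`: the reductions of `γ₀`, `γ_t` and the two congruences at the
middle cusp, on the level of series.

All the series `c.t K`, `c.s K`, `c.thS K`, `c.gamma0 q K`, `c.ldT K`, `c.gammaT q K`, ... are images of
series over `ℤ` (`coeffMap_t`, `coeffMap_gamma0`, ...: `X K = coeffMap (Int.castRingHom K) (X ℤ) =
E.baseFn K (X ℤ)`), hence integral, and `gredFun RK (X K) = X 𝕜` (`D.Top.gredFun_baseFn`).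
-/

set_option autoImplicit false
set_option linter.unusedSectionVars false

namespace Fermat.Agent.GT.Loc

open Fermat.Agent.GR Fermat.Agent.GR.D.Vert Fermat.Agent.GT.Val Fermat.Agent.C36.Unit
  Fermat.Agent.S28 ModularCurve

noncomputable section

variable {K : Type*} [Field K] {RK : ValuationSubring K} [IsDiscreteValuationRing RK]

local notation "𝕜" => IsLocalRing.ResidueField RK

/-- series coming from `ℤ((X))` are integral. -/
theorem isInt_coeffMap_int (H : LaurentSeries ℤ) : IsInt RK (coeffMap (Int.castRingHom K) H) := by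
  intro n
  rw [coeffMap_coeff]
  exact intCast_mem RK _

theorem gredFun_coeffMap_int (H : LaurentSeries ℤ) :
    gredFun RK (coeffMap (Int.castRingHom K) H) = coeffMap (Int.castRingHom 𝕜) H :=
  D.Top.gredFun_baseFn RK H

/-- the residue field has characteristic `q`. -/
theorem charP_residue {q : ℕ} (hq : q.Prime) (hqR : (q : K) ∈ RK.nonunits) : CharP 𝕜 q := by
  rw [CharP.charP_iff_prime_eq_zero hq]
  obtain ⟨hq', hqm⟩ := (ValuationSubring.mem_nonunits_iff_exists_mem_maximalIdeal).1 hqR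
  have h1 : ((q : ℕ) : RK) = ⟨(q : K), hq'⟩ := Subtype.ext (by simp)
  rw [← map_natCast (IsLocalRing.residue RK), h1, IsLocalRing.residue_eq_zero_iff]
  exact hqm

variable (c : BaseCase)

theorem isInt_s : IsInt RK (c.s K) := by
  rw [← c.coeffMap_s (Int.castRingHom K)]
  exact isInt_coeffMap_int _

theorem isInt_t : IsInt RK (c.t K) := by
  rw [← c.coeffMap_t (Int.castRingHom K)]
  exact isInt_coeffMap_int _

/-- `t⁻¹ = X * (tNum)⁻¹` (`c.tNumInv`, `c.tNum_mul_inv`). -/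
theorem isInt_t_inv : IsInt RK (c.t K)⁻¹ := by
  have h1 : c.t K * (xL K * D.Haupt.toL K c.tNumInv) = 1 := by
    have h2 : D.Haupt.toL K c.tNum * D.Haupt.toL K c.tNumInv = 1 := by
      rw [← map_mul, c.tNum_mul_inv, map_one]
    have h3 := xL_mul_xiL K
    rw [BaseCase.t, poleL_eq]
    linear_combination (xL K * xiL K) * h2 + h3
  rw [inv_eq_of_mul_eq_one_right h1]
  have h4 : xL K * D.Haupt.toL K c.tNumInv =
      coeffMap (Int.castRingHom K) (xL ℤ * D.Haupt.toL ℤ c.tNumInv) := by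
    rw [map_mul, D.Haupt.coeffMap_toL, xL, xL, coeffMap_single, map_one (Int.castRingHom K)]
  rw [h4]
  exact isInt_coeffMap_int _

theorem t_ne_zero : c.t K ≠ 0 := by
  intro h
  have := c.t_order K
  rw [h, HahnSeries.order_zero] at this
  omega

/-- (g1) -/
theorem gredFun_gamma0 {q : ℕ} [NeZero q] (hq : q.Prime) (hqR : (q : K) ∈ RK.nonunits) :
    gredFun RK (c.gamma0 q K) = gredFun RK (theta K (c.s K)) ^ (q - 1) := by
  have : Fact q.Prime := ⟨hq⟩
  have : CharP 𝕜 q := charP_residue hq hqR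
  have h1 : theta K (c.s K) = c.thS K := rfl
  rw [h1, ← c.coeffMap_gamma0 q (Int.castRingHom K), ← c.coeffMap_thS (Int.castRingHom K),
    gredFun_coeffMap_int, gredFun_coeffMap_int, c.coeffMap_gamma0, c.coeffMap_thS,
    c.gamma0_charP]

theorem Gam_theta_t_mul_inv : theta K (c.t K) * (c.t K)⁻¹ = c.ldT K := by
  rw [← c.ldT_mul_t, mul_assoc, mul_inv_cancel₀ (t_ne_zero c), mul_one]

/-- `θ t / t = ldT` (`c.ldT_mul_t`). -/
theorem gredFun_gammaT {q : ℕ} [NeZero q] (hq : q.Prime) (hqR : (q : K) ∈ RK.nonunits) :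
    gredFun RK (c.gammaT q K) = gredFun RK (theta K (c.t K) * (c.t K)⁻¹) ^ (q - 1) := by
  have : Fact q.Prime := ⟨hq⟩
  have : CharP 𝕜 q := charP_residue hq hqR
  rw [Gam_theta_t_mul_inv, ← c.coeffMap_gammaT q (Int.castRingHom K),
    ← c.coeffMap_ldT (Int.castRingHom K), gredFun_coeffMap_int, gredFun_coeffMap_int,
    c.coeffMap_gammaT, c.coeffMap_ldT, c.gammaT_charP]

/-- `θ (t⁻¹) / t⁻¹ = - ldT` (`theta_inv`), and `(-1)^(q-1) = 1` in characteristic `q`. -/
theorem gredFun_gammaT' {q : ℕ} [NeZero q] (hq : q.Prime) (hqR : (q : K) ∈ RK.nonunits) :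
    gredFun RK (c.gammaT q K) = gredFun RK (theta K (c.t K)⁻¹ * ((c.t K)⁻¹)⁻¹) ^ (q - 1) := by
  have : Fact q.Prime := ⟨hq⟩
  have : CharP 𝕜 q := charP_residue hq hqR
  have ht := t_ne_zero (K := K) c
  have h1 : theta K (c.t K)⁻¹ * ((c.t K)⁻¹)⁻¹ = coeffMap (Int.castRingHom K) (-c.ldT ℤ) := by
    rw [map_neg, c.coeffMap_ldT, ← Gam_theta_t_mul_inv, theta_inv, inv_inv]
    field_simp
  rw [h1, ← c.coeffMap_gammaT q (Int.castRingHom K), gredFun_coeffMap_int, gredFun_coeffMap_int,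
    c.coeffMap_gammaT, map_neg, c.coeffMap_ldT, c.gammaT_charP]
  rcases hq.eq_two_or_odd' with rfl | hodd
  · have : CharP (LaurentSeries 𝕜) 2 := charP_of_injective_algebraMap
      (algebraMap 𝕜 (LaurentSeries 𝕜)).injective 2
    rw [CharTwo.neg_eq]
  · have heven : Even (q - 1) := by
      obtain ⟨k, hk⟩ := hodd
      exact ⟨k, by omega⟩
    rw [heven.neg_pow]

/-- the congruence away from the cusps. -/
theorem congr_nc {q : ℕ} [NeZero q] (hq : q.Prime) (hqR : (q : K) ∈ RK.nonunits) (ζ : Kˣ)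
    (hζ : IsPrimitiveRoot ζ q) :
    IsGInt RK ((scaleHom ζ (c.s K) - c.s K) ^ (q - 1) / HahnSeries.C (q : K) + c.gamma0 q K) ∧
      gredFun RK
        ((scaleHom ζ (c.s K) - c.s K) ^ (q - 1) / HahnSeries.C (q : K) + c.gamma0 q K) = 0 :=
  series_nc hq hqR ζ hζ (isInt_s c) (isGInt_of_isInt (c.isInt_gamma0 q RK))
    (gredFun_gamma0 c hq hqR)

/-- the congruence at the cusps, `τ = t ^ ε`. -/
theorem congr_cusp {q : ℕ} [NeZero q] (hq : q.Prime) (hqR : (q : K) ∈ RK.nonunits) (ζ : Kˣ)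
    (hζ : IsPrimitiveRoot ζ q) (ε : ℤ) (hε : ε = 1 ∨ ε = -1) :
    IsGInt RK ((scaleHom ζ (c.t K ^ ε) / c.t K ^ ε - 1) ^ (q - 1) / HahnSeries.C (q : K) +
        c.gammaT q K) ∧
      gredFun RK ((scaleHom ζ (c.t K ^ ε) / c.t K ^ ε - 1) ^ (q - 1) / HahnSeries.C (q : K) +
        c.gammaT q K) = 0 := by
  rcases hε with rfl | rfl
  · rw [zpow_one]
    exact series_cusp hq hqR ζ hζ (isInt_t c) (isInt_t_inv c) (t_ne_zero c)
      (isGInt_of_isInt (c.isInt_gammaT q RK)) (gredFun_gammaT c hq hqR)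
  · rw [zpow_neg_one]
    exact series_cusp hq hqR ζ hζ (isInt_t_inv c) (by rw [inv_inv]; exact isInt_t c)
      (inv_ne_zero (t_ne_zero c)) (isGInt_of_isInt (c.isInt_gammaT q RK))
      (gredFun_gammaT' c hq hqR)

end

end Fermat.Agent.GT.Loc
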