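import Fermat.Agent.GT.Loc.Conc.MidInst
import Fermat.Agent.GT.Loc.Conc.UInt
import Fermat.Agent.GT.Loc.N1Conc
import Fermat.Agent.GT.Brg.Assemble
import Fermat.Agent.GT.Val.Conc.ParInst

/-!
GT-LOC, concrete layer, file `Good`: the TOP ASSEMBLY: `Brg.LocAll`, i.e. `BaseHyp`, `TPar` and
`Glue.LocIn` for the base functions `t = h_r ^ ε` (`r = 3` if `q = 2`, `r = 2` otherwise) over every good
field.
-/

set_option autoImplicit false
set_option synthInstance.maxHeartbeats 400000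
set_option linter.unusedSectionVars false
set_option linter.style.haveILetI false

namespace Fermat.Agent.GT.Loc

open Fermat.Agent.GR Fermat.Agent.GR.E Fermat.Agent.GR.D.Vert Fermat.Agent.GT.EMB
  Fermat.Agent.GT.Val Fermat.Agent.GS Fermat.Agent.C36.Unit Fermat.Agent.GT.Brg ModularCurve

noncomputable section

variable (c : BaseCase) {q N1 : ℕ} [NeZero q] [NeZero N1] [NeZero (q * N1)] [NeZero (q ^ 2 * N1)]
  {A : ValuationSubring Qb}

/-- `BaseHyp` and `TPar` for `t = h_r ^ ε`. -/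
theorem Good_par (hA : A.LiesOverPrime q) (hr : c.r ∣ N1) (L : IntermediateField ℚ Qb)
    [FiniteDimensional ℚ L] [IsDiscreteValuationRing (RL A L)]
    {L' : Type} [Field L'] [Algebra L L'] {R' : ValuationSubring L'} [IsDiscreteValuationRing R']
    {ζ' : L'ˣ} {ϖ : RL A L} (C : Ctx (RL A L) R' q N1 ζ' ϖ) (ε : ℤ) (hε : ε = 1 ∨ ε = -1) :
    BaseHyp (RL A L) q N1 ϖ ∧ TPar (RL A L) q N1 ϖ (c.tF L hr ^ ε) := by
  cases c
  · have hM := GR.D.Top.hasModel_h2 N1 hr q C.prime C.ndvd A hA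
    obtain ⟨h1, h2, h3⟩ := par_of_hasModel hA L C GS.Inst.isHaupt_h2 hr hM
    have e : (⟨baseFn L Fermat.Agent.Lib.Hauptmodul.h2, hM.mem L⟩ : FF L N1) =
        BaseCase.two.tF L hr := Subtype.ext (GR.D.Top.CaseH2_baseFn L)
    rw [e] at h2 h3
    refine ⟨h1, ?_⟩
    rcases hε with rfl | rfl
    · rw [zpow_one]; exact h2
    · rw [zpow_neg_one]; exact h3
  · have hM := GR.D.Top.hasModel_h3 N1 hr q C.prime C.ndvd A hA
    obtain ⟨h1, h2, h3⟩ := par_of_hasModel hA L C GS.Inst.isHaupt_h3 hr hM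
    have e : (⟨baseFn L Fermat.Agent.Lib.Hauptmodul.h3, hM.mem L⟩ : FF L N1) =
        BaseCase.three.tF L hr := Subtype.ext (GR.D.Top.caseH3_baseFn L)
    rw [e] at h2 h3
    refine ⟨h1, ?_⟩
    rcases hε with rfl | rfl
    · rw [zpow_one]; exact h2
    · rw [zpow_neg_one]; exact h3

open scoped Fermat.Agent.GS.Inst in
theorem Good_algebraMap_eq_up {L : Type} [Field L] (x : FF L N1) :
    algebraMap (FF L N1) (FF L (q * N1)) x = up (dvd_q0 q N1) x := rfl

open scoped Fermat.Agent.GS.Inst in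
set_option maxHeartbeats 2000000 in
/-- the chart of level `q N1` is saturated. -/
theorem Good_sat (hq : q.Prime) (hqN : ¬ q ∣ N1) (hA : A.LiesOverPrime q) (hr : c.r ∣ N1)
    (L : IntermediateField ℚ Qb) [FiniteDimensional ℚ L] [IsDiscreteValuationRing (RL A L)]
    {ϖ : RL A L} (hϖ : Irreducible ϖ) (ε : ℤ) (hε : ε = 1 ∨ ε = -1) :
    SatChart2 ϖ (gaussO (RL A L) (q * N1)) (Ozero' (RL A L) q N1)
      (chart (RL A L) ({up (dvd_q0 q N1) (c.tF L hr ^ ε)} : Set (FF L (q * N1)))) := by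
  have : CharP (IsLocalRing.ResidueField (RL A L)) q := GR.D.Top.charP_residueField A q hq hA L
  obtain ⟨ι⟩ : Nonempty (Qb →+* ℂ) := S24.nonempty_iotaC
  exact (N1C_towerChart c hq hqN hr A hA L hϖ ε hε).satChart2
    (GS.Inst.towerData (ι.comp (algebraMap L Qb)) hq hqN hϖ (N1C_isWq hq hqN))

open scoped Fermat.Agent.GS.Inst in
set_option maxHeartbeats 2000000 in
/-- all the nodes of the chart of level `q N1` are regular. -/
theorem Good_node (hq : q.Prime) (hqN : ¬ q ∣ N1) (hA : A.LiesOverPrime q) (hl : c.lvl ∣ N1)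
    (hr : c.r ∣ N1) {S : Finset Qb} {L : IntermediateField ℚ Qb} (hG : GoodField A S L)
    [IsDiscreteValuationRing (RL A L)] (hϖ : Irreducible (((q : ℕ) : RL A L)))
    (ε : ℤ) (hε : ε = 1 ∨ ε = -1)
    (𝔫 : Ideal (chart (RL A L) ({up (dvd_q0 q N1) (c.tF L hr ^ ε)} : Set (FF L (q * N1)))))
    (h𝔫 : 𝔫.IsMaximal)
    (h₁ : vert ((q : ℕ) : RL A L) (gaussO (RL A L) (q * N1))
      (chart (RL A L) ({up (dvd_q0 q N1) (c.tF L hr ^ ε)} : Set (FF L (q * N1)))) ≤ 𝔫)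
    (h₂ : vert ((q : ℕ) : RL A L) (Ozero' (RL A L) q N1)
      (chart (RL A L) ({up (dvd_q0 q N1) (c.tF L hr ^ ε)} : Set (FF L (q * N1)))) ≤ 𝔫) :
    RegNode ((q : ℕ) : RL A L) (gaussO (RL A L) (q * N1)) (Ozero' (RL A L) q N1)
      (chart (RL A L) ({up (dvd_q0 q N1) (c.tF L hr ^ ε)} : Set (FF L (q * N1)))) 𝔫 := by
  have := hG.fin
  have : CharP (IsLocalRing.ResidueField (RL A L)) q := GR.D.Top.charP_residueField A q hq hA L
  have : Finite ((RL A L) ⧸ Ideal.span {((q : ℕ) : RL A L)}) := N1C_finite_quot _ hq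
  obtain ⟨σ, hσ, hfr⟩ := exists_frobLift hq hA hG
  exact N1C_regNode c hq hqN hl hr hϖ rfl (σ : L ≃+* L) (fun x => (hσ x).symm) hfr ε hε
    (N1C_towerChart c hq hqN hr A hA L hϖ ε hε) 𝔫 h𝔫 h₁ h₂

set_option maxHeartbeats 2000000 in
/-- EXPORT: `Glue.LocIn` over a good field. -/
theorem locIn_good (hq : q.Prime) (hqN : ¬ q ∣ N1) (hA : A.LiesOverPrime q) (hl : c.lvl ∣ N1)
    (hr : c.r ∣ N1) (hqr : q ≠ c.r) {S : Finset Qb} {L : IntermediateField ℚ Qb}
    (hG : GoodField A S L) [IsDiscreteValuationRing (RL A L)]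
    {L' : Type} [Field L'] [Algebra L L'] {R' : ValuationSubring L'} [IsDiscreteValuationRing R']
    {ζ' : L'ˣ} (C : Ctx (RL A L) R' q N1 ζ' ((q : ℕ) : RL A L)) (e : L' →+* Qb)
    (he : e.comp (algebraMap L L') = algebraMap L Qb) (ε : ℤ) (hε : ε = 1 ∨ ε = -1) :
    Glue.LocIn (RL A L) R' q N1 ζ' ((q : ℕ) : RL A L) (c.tF L hr ^ ε) := by
  have := hG.fin
  obtain ⟨B, ht⟩ := Good_par c hA hr L C ε hε
  have hr1 : c.r ∣ q * N1 := hr.mul_left q
  have hrq : c.r * q ∣ q * N1 := by rw [mul_comm]; exact mul_dvd_mul_left q hr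
  have hl1 : c.lvl ∣ q * N1 := hl.mul_left q
  have hN : c.lvl * q ∣ q * N1 := by rw [mul_comm]; exact mul_dvd_mul_left q hl
  have hS := Good_sat c hq hqN hA hr L C.irr ε hε
  rw [up_tau (hr1 := hr1)] at hS
  exact
    { ne_zero := zpow_ne_zero _ fun h => (c.tF_transcendental L hr) (h ▸ isAlgebraic_zero)
      three := three C B ht (hred_conc C e he)
      mid := midInC C hqr hl ht hε (unitInt c L hq hqr hqN hl hr1 hrq hl1 hN ε hε) hS
      le_oo := fun x hx => (chart₁_le C ht hx).1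
      le_z := fun x hx => (chart₁_le C ht hx).2
      node := Good_node c hq hqN hA hl hr hG C.irr ε hε }

open Fermat.Agent.GT.Val.Conc in
set_option maxHeartbeats 2000000 in
/-- `LocOne` over a good field. -/
theorem locOne_good (hq : q.Prime) (hqN : ¬ q ∣ N1) (hA : A.LiesOverPrime q) (hl : c.lvl ∣ N1)
    (hr : c.r ∣ N1) (hqr : q ≠ c.r) {ζ : Qbˣ} (hζ : IsPrimitiveRoot ζ q) {S : Finset Qb}
    {L : IntermediateField ℚ Qb} (hG : GoodField A S L) [IsDiscreteValuationRing (RL A L)]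
    [IsDiscreteValuationRing (RL A (Lz L ζ))] : LocOne q N1 A ζ L (c.tF L hr) := by
  have := hG.fin
  have C := ctx (N1 := N1) hq hA hζ hqN L hG.inert
  have h1 := Good_par c hA hr L C 1 (Or.inl rfl)
  have h2 := Good_par c hA hr L C (-1) (Or.inr rfl)
  have h3 := locIn_good c hq hqN hA hl hr hqr hG C (algebraMap (Lz L ζ) Qb) rfl 1 (Or.inl rfl)
  have h4 := locIn_good c hq hqN hA hl hr hqr hG C (algebraMap (Lz L ζ) Qb) rfl (-1) (Or.inr rfl)
  rw [zpow_one] at h1 h3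
  rw [zpow_neg_one] at h2 h4
  exact ⟨h1.1, h1.2, h2.2, h3, h4⟩

/-- THE INTERFACE (VAL-Par + LOC) → Assemble. -/
theorem locAll : LocAll := by
  intro q N1 _ _ _ _ hq hqN hcase A hA ζ hζ
  refine ⟨∅, fun x hx => absurd hx (Finset.notMem_empty x), fun L hG _ _ => ?_⟩
  rcases hcase with ⟨h2, h9⟩ | ⟨h2, h4⟩
  · exact ⟨_, locOne_good BaseCase.three hq hqN hA h9 (dvd_trans (by norm_num [BaseCase.r]) h9)
      (by rw [h2]; norm_num [BaseCase.r]) hζ hG⟩
  · exact ⟨_, locOne_good BaseCase.two hq hqN hA h4 (dvd_trans (by norm_num [BaseCase.r]) h4)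
      h2 hζ hG⟩

end

end Fermat.Agent.GT.Loc
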