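import Fermat.Agent.GT.Loc.Conc.Defs
import Fermat.Agent.GT.Val.Inst.Chart

/-!
GT-LOC, concrete layer, file `ThreeInst`: the structure `Three` for
`FF L M0 ⊆ FF L (q M0) ⊆ FF L (q² M0)`, from GT-VAL (`Val/Inst/*`).

WARNING (kernel): never prove an equality between coercions from two DIFFERENT levels
`FF L N`, `FF L N'` by `rfl`; use `coe_up`, `IntermediateField.coe_inclusion`, `Subtype.ext`.
-/

set_option autoImplicit false

set_option synthInstance.maxHeartbeats 400000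

set_option linter.unusedSectionVars false

namespace Fermat.Agent.GT.Loc

open Fermat.Agent.GR Fermat.Agent.GR.E Fermat.Agent.GR.D.Vert Fermat.Agent.GT.EMB
  Fermat.Agent.GT.Val ModularCurve

noncomputable section

variable {L L' : Type} [Field L] [Field L'] [Algebra L L']
  {R : ValuationSubring L} [IsDiscreteValuationRing R]
  {R' : ValuationSubring L'} [IsDiscreteValuationRing R']
  {q M0 : ℕ} [NeZero q] [NeZero M0] [NeZero (q * M0)] [NeZero (q ^ 2 * M0)] {ζ : L'ˣ} {ϖ : R}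

/-! ### the involutions -/

theorem wQ_wQ₁ (C : Ctx R R' q M0 ζ ϖ) (x : FF L (q * M0)) : wQ L q M0 (wQ L q M0 x) = x := by
  obtain ⟨ι⟩ := C.exists_embC'
  exact wQ_wQ ι q M0 C.coprime x

theorem wQ_wQ₂ (C : Ctx R R' q M0 ζ ϖ) (x : FF L (q ^ 2 * M0)) :
    wQ L (q ^ 2) M0 (wQ L (q ^ 2) M0 x) = x := by
  obtain ⟨ι⟩ := C.exists_embC'
  exact wQ_wQ ι (q ^ 2) M0 C.coprime_sq x

/-- `φ₂ = V` (`wQ_sq_up`, `wQ_wQ₁`). -/
theorem coe_phi2C (C : Ctx R R' q M0 ζ ϖ) (x : FF L (q * M0)) :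
    (phi2C R q M0 x : LaurentSeries L) = qExpand L q (x : LaurentSeries L) := by
  rw [phi2C_apply, wQ_sq_up C (wQ L q M0 x), wQ_wQ₁ C]

theorem phi2C_eq_V2 (C : Ctx R R' q M0 ζ ϖ) (x : FF L (q * M0)) :
    phi2C R q M0 x = V2 L q M0 x :=
  Subtype.ext (by rw [coe_phi2C C, coe_V2])

/-- `w_q f = V f` for `f` of level `M0` (`wQ_up0`). -/
theorem wQ_up0_eq_V1 (C : Ctx R R' q M0 ζ ϖ) (f : FF L M0) :
    wQ L q M0 (up (dvd_q0 q M0) f) = V1 L q M0 f :=
  Subtype.ext (by rw [wQ_up0 C, coe_V1])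

/-! ### the middle valuation -/

/-- `midHom (V x) = (w_q x)(ζ X)` (`EMB.iotaMid_qExpand`, `EMB.mapFF_wQ`). -/
theorem midHom_V2 (C : Ctx R R' q M0 ζ ϖ) (x : FF L (q * M0)) :
    midHom q M0 ζ (V2 L q M0 x) =
      scaleHom ζ (coeffMap (algebraMap L L') (wQ L q M0 x : LaurentSeries L)) := by
  obtain ⟨ι⟩ := C.exists_embC
  have hmem : qExpand L' q ((mapFF (algebraMap L L') (q * M0) x : FF L' (q * M0)) :
      LaurentSeries L') ∈ FF L' (q ^ 2 * M0) := by
    have h := (mapFF (algebraMap L L') (q ^ 2 * M0) (V2 L q M0 x)).2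
    rwa [coe_mapFF, coe_V2, coeffMap_qExpand, ← coe_mapFF] at h
  have h1 : mapFF (algebraMap L L') (q ^ 2 * M0) (V2 L q M0 x) =
      ⟨qExpand L' q ((mapFF (algebraMap L L') (q * M0) x : FF L' (q * M0)) :
        LaurentSeries L'), hmem⟩ := by
    apply Subtype.ext
    rw [coe_mapFF, coe_V2, coeffMap_qExpand]
    rfl
  have h2 : midHom q M0 ζ (V2 L q M0 x) =
      iotaMid L' q M0 ζ (mapFF (algebraMap L L') (q ^ 2 * M0) (V2 L q M0 x)) := rfl
  rw [h2, h1, iotaMid_qExpand ι C.prime C.ndvd ζ C.root, ← mapFF_wQ ι (algebraMap L L') q M0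
    C.coprime, coe_mapFF]

/-- (`midHom_V2`, `isGInt_scaleHom` for `ζ` and `ζ⁻¹`, `isGInt_coeffMap_iff`, `bdd_coe_FF`). -/
theorem V2_mem_Omid_iff (C : Ctx R R' q M0 ζ ϖ) (x : FF L (q * M0)) :
    V2 L q M0 x ∈ Omid (L := L) R' q M0 ζ ↔ x ∈ Ozero' R q M0 := by
  have hζ := root_mem (RK := R') C.prime.pos ζ C.root.pow_eq_one
  have hζ' : ((ζ⁻¹ : L'ˣ) : L') ∈ R' ∧ (((ζ⁻¹)⁻¹ : L'ˣ) : L') ∈ R' := by
    rw [inv_inv]
    exact ⟨hζ.2, hζ.1⟩
  rw [mem_Omid C, midHom_V2 C, mem_Ozero', ← isGInt_coeffMap_iff C.comap (bdd_coe_FF _)]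
  constructor
  · intro h
    have h2 := isGInt_scaleHom ζ⁻¹ hζ'.1 hζ'.2 h
    have h3 : ∀ y : LaurentSeries L', scaleHom ζ⁻¹ (scaleHom ζ y) = y := by
      intro y
      ext n
      rw [scaleHom_coeff, scaleHom_coeff, ← mul_assoc, ← Units.val_mul, inv_zpow, inv_mul_cancel,
        Units.val_one, one_mul]
    rwa [h3] at h2
  · intro h
    exact isGInt_scaleHom ζ hζ.1 hζ.2 h

/-- `f(X^{q²}) ≡ f(X)` (`midHom_t0F`, `midHom_t2F`, `wQ_t0F`, `gredFun_scaleHom`,
`root_sub_one_mem_nonunits`). -/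
theorem wQ_sub_mem_Omid (C : Ctx R R' q M0 ζ ϖ) (f : FF L M0) (hf : f ∈ gaussO R M0) :
    wQ L (q ^ 2) M0 (up (dvd_sq0 q M0) f) - up (dvd_sq0 q M0) f ∈
      (Omid (L := L) R' q M0 ζ).nonunits := by
  have hf' : IsGInt R' (coeffMap (algebraMap L L') (f : LaurentSeries L)) :=
    isGInt_coeffMap C.comap hf
  have hs := gredFun_scaleHom ζ
    (root_sub_one_mem_nonunits C.prime C.q_mem_nonunits ζ C.root.pow_eq_one) hf'
  have h0 : up (dvd_sq0 q M0) f = t0F q f := rfl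
  have hu : t2F q f ∈ Omid (L := L) R' q M0 ζ := by
    rw [mem_Omid C, midHom_t2F C]
    exact hs.1
  have hv : t0F q f ∈ Omid (L := L) R' q M0 ζ := by
    rw [mem_Omid C, midHom_t0F C]
    exact hf'
  rw [h0, wQ_t0F C]
  refine (sub_mem_nonunits_gaussAlong (bdd_midHom C) hu hv).2 ?_
  rw [midHom_t2F C, midHom_t0F C]
  exact hs.2

/-! ### stability of the chart of level `q M0` under `w_q` -/

/-- `w_q` maps `chart R {t}` into `chart R {V t} ≤ chart R {t}` (`Val.map_mem_chart`,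
`Val.chart_le_chart`, `TPar.wint`, `wQ_up0_eq_V1`); compare `Val.wQ_mem_chart`. -/
theorem wQ_mem_chart₁ (C : Ctx R R' q M0 ζ ϖ) {t : FF L M0} (ht : TPar R q M0 ϖ t)
    {x : FF L (q * M0)} (hx : x ∈ chart R ({up (dvd_q0 q M0) t} : Set (FF L (q * M0)))) :
    wQ L q M0 x ∈ chart R ({up (dvd_q0 q M0) t} : Set (FF L (q * M0))) := by
  have h := map_mem_chart (w1C R q M0 : FF L (q * M0) →ₐ[R] FF L (q * M0)) hx
  rw [Set.image_singleton, AlgEquiv.coe_toAlgHom, w1C_apply, w1C_apply, wQ_up0_eq_V1 C t] at h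
  refine chart_le_chart (fun s hs => ?_) h
  rw [Set.mem_singleton_iff] at hs
  rw [hs]
  exact ht.wint

theorem ThreeInst_algebraMap_mem_gaussO (N : ℕ) (κ : R) :
    algebraMap R (FF L N) κ ∈ gaussO R N := by
  rw [mem_gaussO, coe_algebraMap_C, ← coeffMap_C (algebraMap R L) κ]
  exact isGInt_emb (L := L) (HahnSeries.C κ)

theorem ThreeInst_algebraMap_mem_Ozero' (κ : R) :
    algebraMap R (FF L (q * M0)) κ ∈ Ozero' R q M0 := by
  rw [mem_Ozero', Chart_algebraMap_eq, (wQ L q M0).commutes (κ : L), ← Chart_algebraMap_eq,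
    ← mem_gaussO]
  exact ThreeInst_algebraMap_mem_gaussO (q * M0) κ

/-- the chart of level `q M0` lies in the two valuation subrings. -/
theorem chart₁_le (C : Ctx R R' q M0 ζ ϖ) {t : FF L M0} (ht : TPar R q M0 ϖ t)
    {x : FF L (q * M0)} (hx : x ∈ chart R ({up (dvd_q0 q M0) t} : Set (FF L (q * M0)))) :
    x ∈ gaussO R (q * M0) ∧ x ∈ Ozero' R q M0 := by
  have ht0 : IsGInt R (t : LaurentSeries L) := mem_gaussO.1 ht.param.mem
  constructor
  · refine chart_le_valuationSubring (gaussO R (q * M0))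
      (ThreeInst_algebraMap_mem_gaussO (q * M0)) (fun s hs => ?_) hx
    rw [Set.mem_singleton_iff] at hs
    rw [hs, mem_gaussO, coe_up]
    exact ht0
  · refine chart_le_valuationSubring (Ozero' R q M0)
      ThreeInst_algebraMap_mem_Ozero' (fun s hs => ?_) hx
    rw [Set.mem_singleton_iff] at hs
    rw [hs, mem_Ozero', wQ_up0 C]
    exact isGInt_qExpand q ht0

/-! ### assembly -/

/-- THE INSTANCE.  `hred` is `Glue.NormVal.red_ins` for `(phi1C, nm1C)`. -/
theorem three [CharZero L] (C : Ctx R R' q M0 ζ ϖ) (B : BaseHyp R q M0 ϖ) {t : FF L M0}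
    (ht : TPar R q M0 ϖ t)
    (hred : ∀ a ∈ Ozero R q M0,
      up (dvd_sq q M0) (nm1C L q M0 a) - a ^ q ∈ (Ozero R q M0).nonunits) :
    letI := algFF L (dvd_q0 q M0)
    letI := algFF L (dvd_sq q M0)
    letI := algFF L (dvd_sq0 q M0)
    Three ϖ q (gaussO R M0) (gaussO R (q * M0)) (Ozero' R q M0) (vfam R R' q M0 ζ)
      (w1C R q M0) (w2C R q M0) t := by
  letI := algFF L (dvd_q0 q M0)
  letI := algFF L (dvd_sq q M0)
  letI := algFF L (dvd_sq0 q M0)
  exact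
  { q_pos := C.prime.pos
    tower := vTower C B
    chart := vChart C B ht
    res0 := resEq_zero C B
    res1 := resEq_one C B
    gauss_oo := gaussRing R (q * M0) C.irr
    gauss_z := gaussRing_Ozero' C.irr
    gauss0 := gaussRing R (q ^ 2 * M0) C.irr
    gauss2 := gaussRing_Ozero C.irr
    comap0 := fun x => up_mem_Oinf x
    comap1 := fun x => up_mem_Omid C x
    comap2 := fun x => up_mem_Ozero C x
    invol1 := fun x => wQ_wQ₁ C x
    invol2 := fun x => wQ_wQ₂ C x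
    opp1 := fun x => Iff.rfl
    opp2 := fun x => Iff.rfl
    stable1 := fun x hx => wQ_mem_chart₁ C ht hx
    stable2 := fun x hx => wQ_mem_chart C ht hx
    mid_V := fun x => by
      have h := V2_mem_Omid_iff C x
      rw [← phi2C_eq_V2 C x] at h
      exact h
    mid_sq := fun f hf => wQ_sub_mem_Omid C f hf
    fix_V := fun f => by
      have h := wQ_t1F C f
      rw [t1F, ← wQ_up0_eq_V1 C f] at h
      exact h
    red_ins := hred }

end

end Fermat.Agent.GT.Loc
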