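import Fermat.Agent.GT.Loc.Conc.Gam
import Fermat.Agent.GT.Loc.Conc.ThreeInst

/-!
GT-LOC, concrete layer, file `MidA`: the named elements `t, s, V t, V s, γ₀, γ_t` at the three levels,
and the two congruences at the middle valuation, in the function field `FF L (q² M0)`.

WARNING (kernel): never prove an equality between coercions from two DIFFERENT levels
`FF L N`, `FF L N'` by `rfl`; use `coe_up`, `IntermediateField.coe_inclusion`, `Subtype.ext`.
-/

set_option autoImplicit false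
set_option synthInstance.maxHeartbeats 400000
set_option linter.unusedSectionVars false

namespace Fermat.Agent.GT.Loc

open Fermat.Agent.GR Fermat.Agent.GR.E Fermat.Agent.GR.D.Vert Fermat.Agent.GT.EMB
  Fermat.Agent.GT.Val Fermat.Agent.C36.Unit ModularCurve

noncomputable section

variable (c : BaseCase)

/-! ### `up` -/

section Up

variable {K : Type*} [Field K] {N N' : ℕ}

theorem up_zpow (h : N ∣ N') (x : FF K N) (ε : ℤ) : up h (x ^ ε) = up h x ^ ε :=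
  map_zpow₀ (IntermediateField.inclusion (FF_mono K h)) x ε

theorem up_pow (h : N ∣ N') (x : FF K N) (n : ℕ) : up h (x ^ n) = up h x ^ n :=
  map_pow (IntermediateField.inclusion (FF_mono K h)) x n

theorem up_mul (h : N ∣ N') (x y : FF K N) : up h (x * y) = up h x * up h y :=
  map_mul (IntermediateField.inclusion (FF_mono K h)) x y

theorem up_tF (h : N ∣ N') (hr : c.r ∣ N) (hr' : c.r ∣ N') :
    up h (c.tF K hr) = c.tF K hr' :=
  Subtype.ext (by rw [coe_up, BaseCase.coe_tF, BaseCase.coe_tF])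

theorem up_sF [NeZero N] [NeZero N'] (h : N ∣ N') (hl : c.lvl ∣ N) (hl' : c.lvl ∣ N') :
    up h (c.sF K hl) = c.sF K hl' := by
  exact Subtype.ext (by rw [coe_up, BaseCase.coe_sF, BaseCase.coe_sF])

end Up

variable {L L' : Type} [Field L] [CharZero L] [Field L'] [Algebra L L']
  {R : ValuationSubring L} [IsDiscreteValuationRing R]
  {R' : ValuationSubring L'} [IsDiscreteValuationRing R']
  {q M0 : ℕ} [NeZero q] [NeZero M0] [NeZero (q * M0)] [NeZero (q ^ 2 * M0)] {ζ : L'ˣ} {ϖ : R}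

theorem V1_tF (hr : c.r ∣ M0) (hrq : c.r * q ∣ q * M0) :
    V1 L q M0 (c.tF L hr) = c.tVF L q hrq := by
  exact Subtype.ext (by rw [coe_V1, BaseCase.coe_tF, BaseCase.coe_tVF])

theorem V1_sF (hl : c.lvl ∣ M0) (hN : c.lvl * q ∣ q * M0) :
    V1 L q M0 (c.sF L hl) = c.sVF L q hN := by
  exact Subtype.ext (by rw [coe_V1, BaseCase.coe_sF, BaseCase.coe_sVF])

/-- `w_q` exchanges `t` and `V t` (`wQ_up0_eq_V1`, `wQ_wQ₁`). -/
theorem wQ_tF (C : Ctx R R' q M0 ζ ϖ) (hr : c.r ∣ M0) (hr1 : c.r ∣ q * M0)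
    (hrq : c.r * q ∣ q * M0) :
    wQ L q M0 (c.tF L hr1) = c.tVF L q hrq ∧ wQ L q M0 (c.tVF L q hrq) = c.tF L hr1 := by
  have h1 : wQ L q M0 (c.tF L hr1) = c.tVF L q hrq := by
    rw [← up_tF c (dvd_q0 q M0) hr hr1, wQ_up0_eq_V1 C, V1_tF c hr hrq]
  exact ⟨h1, by rw [← h1, wQ_wQ₁ C]⟩

/-- `w_q` exchanges `s` and `V s`. -/
theorem wQ_sF' (C : Ctx R R' q M0 ζ ϖ) (hl : c.lvl ∣ M0) (hl1 : c.lvl ∣ q * M0)
    (hN : c.lvl * q ∣ q * M0) :
    wQ L q M0 (c.sF L hl1) = c.sVF L q hN ∧ wQ L q M0 (c.sVF L q hN) = c.sF L hl1 := by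
  have h1 : wQ L q M0 (c.sF L hl1) = c.sVF L q hN := by
    rw [← up_sF c (dvd_q0 q M0) hl hl1, wQ_up0_eq_V1 C, V1_sF c hl hN]
  exact ⟨h1, by rw [← h1, wQ_wQ₁ C]⟩

/-! ### the expansions at the middle cusp -/

/-- (`Ctx.algebraMap_unif`, `midHom_of_mem` or `AlgHom.commutes`) -/
theorem midHom_unif (C : Ctx R R' q M0 ζ ϖ) :
    midHom q M0 ζ (algebraMap R (FF L (q ^ 2 * M0)) ϖ) = HahnSeries.C (q : L') := by
  exact t_midHom_unif C

theorem midHom_up (C : Ctx R R' q M0 ζ ϖ) (f : FF L (q * M0)) :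
    midHom q M0 ζ (up (dvd_sq q M0) f) = coeffMap (algebraMap L L') (f : LaurentSeries L) := by
  rw [midHom_of_mem C _ (by rw [coe_up]; exact f.2), coe_up]

/-- (`wQ_t0F`, `midHom_t2F`) -/
theorem midHom_wQ_up0 (C : Ctx R R' q M0 ζ ϖ) (f : FF L M0) :
    midHom q M0 ζ (wQ L (q ^ 2) M0 (up (dvd_sq0 q M0) f)) =
      scaleHom ζ (coeffMap (algebraMap L L') (f : LaurentSeries L)) := by
  have h := wQ_t0F C f
  rw [t0F] at h
  rw [h, midHom_t2F C f]

/-! ### the two congruences -/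

/-- away from the cusps (`mem_nonunits_Omid`, `congr_nc` for `K = L'`, `RK = R'`). -/
theorem nc_congr (C : Ctx R R' q M0 ζ ϖ) (hl : c.lvl ∣ M0) (hN : c.lvl * q ∣ q * M0) :
    (wQ L (q ^ 2) M0 (up (dvd_sq0 q M0) (c.sF L hl)) - up (dvd_sq0 q M0) (c.sF L hl)) ^ (q - 1) /
        algebraMap R (FF L (q ^ 2 * M0)) ϖ + up (dvd_sq q M0) (c.gamma0F q L hN) ∈
      (Omid (L := L) R' q M0 ζ).nonunits := by
  rw [mem_nonunits_Omid C]
  have e : midHom q M0 ζ
      ((wQ L (q ^ 2) M0 (up (dvd_sq0 q M0) (c.sF L hl)) - up (dvd_sq0 q M0) (c.sF L hl)) ^ (q - 1) /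
        algebraMap R (FF L (q ^ 2 * M0)) ϖ + up (dvd_sq q M0) (c.gamma0F q L hN)) =
      (scaleHom ζ (c.s L') - c.s L') ^ (q - 1) / HahnSeries.C (q : L') + c.gamma0 q L' := by
    rw [map_add, map_div₀, map_pow, map_sub, midHom_wQ_up0 C, midHom_t0F C, midHom_up C,
      midHom_unif C, BaseCase.coe_sF, BaseCase.coeffMap_s, BaseCase.coe_gamma0F,
      BaseCase.coeffMap_gamma0]
  rw [e]
  exact congr_nc c C.prime C.q_mem_nonunits ζ C.root

/-- at the cusps (`congr_cusp`). -/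
theorem cusp_congr (C : Ctx R R' q M0 ζ ϖ) (hr : c.r ∣ M0) (hN : c.lvl * q ∣ q * M0) (ε : ℤ)
    (hε : ε = 1 ∨ ε = -1) :
    (wQ L (q ^ 2) M0 (up (dvd_sq0 q M0) (c.tF L hr ^ ε)) / up (dvd_sq0 q M0) (c.tF L hr ^ ε) - 1) ^
          (q - 1) / algebraMap R (FF L (q ^ 2 * M0)) ϖ + up (dvd_sq q M0) (c.gammaTF q L hN) ∈
      (Omid (L := L) R' q M0 ζ).nonunits := by
  rw [mem_nonunits_Omid C]
  have e0 : coeffMap (algebraMap L L') ((c.tF L hr ^ ε : FF L M0) : LaurentSeries L) =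
      c.t L' ^ ε := by
    have h1 : ((c.tF L hr ^ ε : FF L M0) : LaurentSeries L) = c.t L ^ ε := by
      rw [← BaseCase.coe_tF c L hr]
      exact map_zpow₀ (FF L M0).val (c.tF L hr) ε
    rw [h1, map_zpow₀, BaseCase.coeffMap_t]
  have e : midHom q M0 ζ
      ((wQ L (q ^ 2) M0 (up (dvd_sq0 q M0) (c.tF L hr ^ ε)) / up (dvd_sq0 q M0) (c.tF L hr ^ ε) -
          1) ^ (q - 1) / algebraMap R (FF L (q ^ 2 * M0)) ϖ +
        up (dvd_sq q M0) (c.gammaTF q L hN)) =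
      (scaleHom ζ (c.t L' ^ ε) / c.t L' ^ ε - 1) ^ (q - 1) / HahnSeries.C (q : L') +
        c.gammaT q L' := by
    rw [map_add, map_div₀, map_pow, map_sub, map_div₀, map_one, midHom_wQ_up0 C, midHom_t0F C,
      midHom_up C, midHom_unif C, e0, BaseCase.coe_gammaTF, BaseCase.coeffMap_gammaT]
  rw [e]
  exact congr_cusp c C.prime C.q_mem_nonunits ζ C.root ε hε

end

end Fermat.Agent.GT.Loc
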