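import Fermat.Agent.GT.Loc.Conc.Rel
import Fermat.Agent.GT.Loc.Conc.Gam
import Fermat.Agent.GS.Bridge.Cert

/-!
GT-LOC, concrete layer, file `MidB`: everything at ONE level `N` (`= q M0`): relations between
`t, s, V t, V s`; `γ₀^{±1}`, `γ_t^{±1}` are Gauss units; bounded denominators on the chart
`chart R {t ^ ε}` (from UNIT: integrality over `L[t ^ ε]`, and
`GS.exists_pow_mul_mem_chart_of_isIntegral`).
-/

set_option autoImplicit false
set_option synthInstance.maxHeartbeats 400000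
set_option linter.unusedSectionVars false

namespace Fermat.Agent.GT.Loc

open Fermat.Agent.GR Fermat.Agent.GR.E Fermat.Agent.GR.D.Vert Fermat.Agent.C36.Unit ModularCurve

noncomputable section

variable (c : BaseCase)

section Field

variable {K : Type*} [Field K] {q N : ℕ} [NeZero q] [NeZero N]

theorem MidB_t_ne_zero : c.t K ≠ 0 := fun h => c.t_transcendental K (h ▸ isAlgebraic_zero)

theorem MidB_s_ne_zero : c.s K ≠ 0 := fun h => c.s_transcendental K (h ▸ isAlgebraic_zero)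

theorem tF_ne_zero (hr : c.r ∣ N) : c.tF K hr ≠ 0 := by
  intro h
  exact MidB_t_ne_zero c (K := K) (congrArg (fun x : FF K N => (x : LaurentSeries K)) h)

theorem sF_ne_zero (hl : c.lvl ∣ N) : c.sF K hl ≠ 0 := by
  intro h
  exact MidB_s_ne_zero c (K := K) (congrArg (fun x : FF K N => (x : LaurentSeries K)) h)

theorem tVF_ne_zero (hrq : c.r * q ∣ N) : c.tVF K q hrq ≠ 0 := by
  intro h
  have h1 : qExpand K q (c.t K) = 0 := congrArg (fun x : FF K N => (x : LaurentSeries K)) h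
  rw [← map_zero (qExpand K q)] at h1
  exact MidB_t_ne_zero c (K := K) (qExpand_injective q h1)

theorem sVF_ne_zero (hN : c.lvl * q ∣ N) : c.sVF K q hN ≠ 0 := by
  intro h
  have h1 : qExpand K q (c.s K) = 0 := congrArg (fun x : FF K N => (x : LaurentSeries K)) h
  rw [← map_zero (qExpand K q)] at h1
  exact MidB_s_ne_zero c (K := K) (qExpand_injective q h1)

/-- (`c.s_pow`, `c.map_wv` for `(FF K N).val`) -/
theorem sF_rel (hr : c.r ∣ N) (hl : c.lvl ∣ N) :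
    c.sF K hl ^ c.r = c.tF K hr * c.wv (c.sF K hl) := by
  apply (FF K N).val.injective
  rw [map_pow, map_mul, c.map_wv (FF K N).val.toRingHom]
  exact c.s_pow K

/-- (apply `qExpand K q` to `c.s_pow`) -/
theorem sVF_rel (hrq : c.r * q ∣ N) (hN : c.lvl * q ∣ N) :
    c.sVF K q hN ^ c.r = c.tVF K q hrq * c.wv (c.sVF K q hN) := by
  apply (FF K N).val.injective
  rw [map_pow, map_mul, c.map_wv (FF K N).val.toRingHom]
  have h := congrArg (qExpand K q) (c.s_pow K)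
  rw [map_pow, map_mul, c.map_wv (qExpand K q)] at h
  exact h

end Field

/-! ### Gauss units -/

section Gauss

variable {L : Type*} [Field L] [CharZero L] {R : ValuationSubring L} [IsDiscreteValuationRing R]
  {q : ℕ} [NeZero q] {N : ℕ} [NeZero N]

theorem gamma0F_mem (hN : c.lvl * q ∣ N) :
    c.gamma0F q L hN ∈ gaussO R N ∧ (c.gamma0F q L hN)⁻¹ ∈ gaussO R N := by
  constructor
  · rw [mem_gaussO, BaseCase.coe_gamma0F]
    exact isGInt_of_isInt (c.isInt_gamma0 q R)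
  · rw [mem_gaussO, IntermediateField.coe_inv, BaseCase.coe_gamma0F,
      ← eq_inv_of_mul_eq_one_right (c.gamma0_mul_inv q L)]
    exact isGInt_of_isInt (c.isInt_gamma0Inv q R)

theorem gammaTF_mem (hN : c.lvl * q ∣ N) :
    c.gammaTF q L hN ∈ gaussO R N ∧ (c.gammaTF q L hN)⁻¹ ∈ gaussO R N := by
  constructor
  · rw [mem_gaussO, BaseCase.coe_gammaTF]
    exact isGInt_of_isInt (c.isInt_gammaT q R)
  · rw [mem_gaussO, IntermediateField.coe_inv, BaseCase.coe_gammaTF,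
      ← eq_inv_of_mul_eq_one_right (c.gammaT_mul_inv q L)]
    exact isGInt_of_isInt (c.isInt_gammaTInv q R)

end Gauss

/-! ### bounded denominators -/

variable {L : Type} [Field L] [CharZero L] {R : ValuationSubring L} [IsDiscreteValuationRing R]
  {q : ℕ} [NeZero q] {N : ℕ} [NeZero N] {ϖ : R}

/-- the denominator of `γ_t^{±1}` on the chart `t ^ ε`. -/
def rhoF (L : Type) [Field L] (q : ℕ) [NeZero q] {N : ℕ} [NeZero N] (hl1 : c.lvl ∣ N)
    (hN : c.lvl * q ∣ N) (ε : ℤ) : FF L N :=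
  if ε = 1 then c.rn (c.sF L hl1) * c.rn (c.sVF L q hN)
  else c.rn' (c.sF L hl1)⁻¹ * c.rn' (c.sVF L q hN)⁻¹

/-- WHAT IS CONSUMED FROM UNIT (integrality over `L[t ^ ε]`), for a generic field `L`
(instantiated in `Conc/UnitInst.lean` for `L : IntermediateField ℚ Qb`; elaboration over such an `L`
is very slow). -/
structure UnitInt (L : Type) [Field L] [CharZero L] (q : ℕ) [NeZero q] {N : ℕ} [NeZero N]
    (hr1 : c.r ∣ N) (hrq : c.r * q ∣ N) (hl1 : c.lvl ∣ N) (hN : c.lvl * q ∣ N) (ε : ℤ) :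
    Prop where
  /-- (g3') -/
  g0 : ∃ k : ℕ,
    IsIntegral (Algebra.adjoin L ({c.tF L hr1 ^ ε} : Set (FF L N)))
      ((c.tF L hr1 ^ ε) ^ k * c.gamma0F q L hN) ∧
    IsIntegral (Algebra.adjoin L ({c.tF L hr1 ^ ε} : Set (FF L N)))
      ((c.tF L hr1 ^ ε) ^ k * (c.gamma0F q L hN)⁻¹)
  /-- (g4') -/
  gT : ∃ k : ℕ,
    IsIntegral (Algebra.adjoin L ({c.tF L hr1 ^ ε} : Set (FF L N)))
      (rhoF c L q hl1 hN ε ^ k * c.gammaTF q L hN) ∧
    IsIntegral (Algebra.adjoin L ({c.tF L hr1 ^ ε} : Set (FF L N)))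
      (rhoF c L q hl1 hN ε ^ k * (c.gammaTF q L hN)⁻¹)
  /-- (CuspT) -/
  ea : IsIntegral (Algebra.adjoin L ({c.tF L hr1 ^ ε} : Set (FF L N)))
    ((c.tF L hr1 ^ ε) ^ q / c.tVF L q hrq ^ ε)

variable {c} {hr1 : c.r ∣ N} {hrq : c.r * q ∣ N} {hl1 : c.lvl ∣ N} {hN : c.lvl * q ∣ N} {ε : ℤ}

/-- (g3') + clearing of denominators (`GS.exists_pow_mul_mem_chart_of_isIntegral`; take the max of
the two exponents). -/
theorem UnitInt.exists_gamma0_mem_chart (U : UnitInt c L q hr1 hrq hl1 hN ε)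
    (hϖ : Irreducible ϖ) : ∃ k m : ℕ,
    algebraMap R (FF L N) ϖ ^ m * ((c.tF L hr1 ^ ε) ^ k * c.gamma0F q L hN) ∈
      chart R ({c.tF L hr1 ^ ε} : Set (FF L N)) ∧
    algebraMap R (FF L N) ϖ ^ m * ((c.tF L hr1 ^ ε) ^ k * (c.gamma0F q L hN)⁻¹) ∈
      chart R ({c.tF L hr1 ^ ε} : Set (FF L N)) := by
  obtain ⟨k, h1, h2⟩ := U.g0
  obtain ⟨m1, hm1⟩ := GS.exists_pow_mul_mem_chart_of_isIntegral R hϖ _ _ h1
  obtain ⟨m2, hm2⟩ := GS.exists_pow_mul_mem_chart_of_isIntegral R hϖ _ _ h2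
  exact ⟨k, max m1 m2, hm1 _ (le_max_left _ _), hm2 _ (le_max_right _ _)⟩

/-- (g4') + clearing of denominators. -/
theorem UnitInt.exists_gammaT_mem_chart (U : UnitInt c L q hr1 hrq hl1 hN ε)
    (hϖ : Irreducible ϖ) : ∃ k m : ℕ,
    algebraMap R (FF L N) ϖ ^ m * (rhoF c L q hl1 hN ε ^ k * c.gammaTF q L hN) ∈
      chart R ({c.tF L hr1 ^ ε} : Set (FF L N)) ∧
    algebraMap R (FF L N) ϖ ^ m * (rhoF c L q hl1 hN ε ^ k * (c.gammaTF q L hN)⁻¹) ∈
      chart R ({c.tF L hr1 ^ ε} : Set (FF L N)) := by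
  obtain ⟨k, h1, h2⟩ := U.gT
  obtain ⟨m1, hm1⟩ := GS.exists_pow_mul_mem_chart_of_isIntegral R hϖ _ _ h1
  obtain ⟨m2, hm2⟩ := GS.exists_pow_mul_mem_chart_of_isIntegral R hϖ _ _ h2
  exact ⟨k, max m1 m2, hm1 _ (le_max_left _ _), hm2 _ (le_max_right _ _)⟩

/-- (CuspT) + clearing of denominators: `e = τ^q / V τ`. -/
theorem UnitInt.exists_ea_mem_chart (U : UnitInt c L q hr1 hrq hl1 hN ε) (hϖ : Irreducible ϖ) :
    ∃ m : ℕ, algebraMap R (FF L N) ϖ ^ m * ((c.tF L hr1 ^ ε) ^ q / c.tVF L q hrq ^ ε) ∈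
      chart R ({c.tF L hr1 ^ ε} : Set (FF L N)) := by
  obtain ⟨m, hm⟩ := GS.exists_pow_mul_mem_chart_of_isIntegral R hϖ _ _ U.ea
  exact ⟨m, hm m le_rfl⟩

end

end Fermat.Agent.GT.Loc
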