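import Fermat.Agent.GT.Loc.Conc.MidA
import Fermat.Agent.GT.Loc.Conc.MidB
import Fermat.Agent.GS.Abs.Basic

/-!
GT-LOC, concrete layer, file `MidC`: the elements `e = τ^q / V τ` and `s₁ = ρ^k` of the chart
`C1 = chart R {τ}` of level `q M0`, `τ = t ^ ε`.
-/

set_option autoImplicit false
set_option synthInstance.maxHeartbeats 400000
set_option linter.unusedSectionVars false

namespace Fermat.Agent.GT.Loc

open Fermat.Agent.GR Fermat.Agent.GR.E Fermat.Agent.GR.D.Vert Fermat.Agent.GT.EMB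
  Fermat.Agent.GT.Val Fermat.Agent.GS Fermat.Agent.C36.Unit ModularCurve

noncomputable section

variable {c : BaseCase}

variable {L L' : Type} [Field L] [CharZero L] [Field L'] [Algebra L L']
  {R : ValuationSubring L} [IsDiscreteValuationRing R]
  {R' : ValuationSubring L'} [IsDiscreteValuationRing R']
  {q M0 : ℕ} [NeZero q] [NeZero M0] [NeZero (q * M0)] [NeZero (q ^ 2 * M0)] {ζ : L'ˣ} {ϖ : R}
  {hr : c.r ∣ M0} {hr1 : c.r ∣ q * M0} {hrq : c.r * q ∣ q * M0} {hl1 : c.lvl ∣ q * M0}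
  {hN : c.lvl * q ∣ q * M0} {ε : ℤ}

local notation "C1" => chart R ({c.tF L hr1 ^ ε} : Set (FF L (q * M0)))

/-- `r` is a unit of `R` (`a r + b q = 1`, `q = ϖ ∈ 𝔪`). -/
theorem isUnit_r (C : Ctx R R' q M0 ζ ϖ) (hqr : q ≠ c.r) : IsUnit ((c.r : ℕ) : R) := by
  have hcop : Nat.Coprime c.r q := (Nat.coprime_primes c.r_prime C.prime).2 (Ne.symm hqr)
  have hq : ((q : ℕ) : R) = ϖ := Subtype.ext (by rw [C.unif]; simp)
  by_contra hu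
  have h1 : ((c.r : ℕ) : R) ∈ IsLocalRing.maximalIdeal R := (IsLocalRing.mem_maximalIdeal _).2 hu
  have h2 : ((q : ℕ) : R) ∈ IsLocalRing.maximalIdeal R := by
    rw [hq]; exact (IsLocalRing.mem_maximalIdeal _).2 C.irr.not_isUnit
  have hco : IsCoprime ((c.r : ℕ) : R) ((q : ℕ) : R) := by
    have := (Nat.isCoprime_iff_coprime.2 hcop).map (Int.castRingHom R)
    simpa using this
  obtain ⟨a, b, hab⟩ := hco
  exact (Ideal.ne_top_iff_one _).1 (IsLocalRing.maximalIdeal.isMaximal R).ne_top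
    (hab ▸ Ideal.add_mem _ (Ideal.mul_mem_left _ _ h1) (Ideal.mul_mem_left _ _ h2))

/-- `up τ = t ^ ε` at level `q M0`. -/
theorem up_tau : up (dvd_q0 q M0) (c.tF L hr ^ ε) = c.tF L hr1 ^ ε := by
  rw [up_zpow, up_tF]

/-- `V τ ∈ C1` (`TPar.wint`, `V1_tF`, `map_zpow₀`). -/
theorem tVF_zpow_mem (ht : TPar R q M0 ϖ (c.tF L hr ^ ε)) : c.tVF L q hrq ^ ε ∈ C1 := by
  have h := ht.wint
  rw [map_zpow₀, V1_tF c hr hrq, up_tau (hr1 := hr1)] at h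
  exact h

/-- `V τ` as a series. -/
theorem MidC_coe_tVF_zpow :
    ((c.tVF L q hrq ^ ε : FF L (q * M0)) : LaurentSeries L) =
      qExpand L q ((c.tF L hr ^ ε : FF L M0) : LaurentSeries L) := by
  rw [← V1_tF c hr hrq, ← map_zpow₀, coe_V1]

/-- `τ` at level `q M0` as a series. -/
theorem MidC_coe_tF_zpow :
    ((c.tF L hr1 ^ ε : FF L (q * M0)) : LaurentSeries L) =
      ((c.tF L hr ^ ε : FF L M0) : LaurentSeries L) := by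
  rw [← up_tau (hr := hr) (hr1 := hr1), coe_up]

theorem MidC_tVF_zpow_mem_gaussO (ht : TPar R q M0 ϖ (c.tF L hr ^ ε)) :
    c.tVF L q hrq ^ ε ∈ gaussO R (q * M0) := by
  rw [mem_gaussO, MidC_coe_tVF_zpow (hr := hr)]
  exact Val.isGInt_qExpand q ht.param.mem

theorem MidC_tF_zpow_mem_gaussO (ht : TPar R q M0 ϖ (c.tF L hr ^ ε)) :
    c.tF L hr1 ^ ε ∈ gaussO R (q * M0) := by
  rw [mem_gaussO, MidC_coe_tF_zpow (hr := hr)]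
  exact ht.param.mem

/-- `V τ ≡ τ^q` at `∞` (`TPar.frob`). -/
theorem tVF_sub_mem_nonunits (ht : TPar R q M0 ϖ (c.tF L hr ^ ε)) :
    c.tVF L q hrq ^ ε - (c.tF L hr1 ^ ε) ^ q ∈ (gaussO R (q * M0)).nonunits := by
  rw [sub_mem_nonunits_gaussO (MidC_tVF_zpow_mem_gaussO ht)
    (pow_mem (MidC_tF_zpow_mem_gaussO ht) q), MidC_coe_tVF_zpow (hr := hr), ht.frob,
    IntermediateField.coe_pow, MidC_coe_tF_zpow (hr := hr), gredFun_pow ht.param.mem]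

/-! ### `e` -/

/-- `t ^ ε` and its inverse are integral series. -/
theorem MidC_isGInt_t_zpow (c : BaseCase) (R : ValuationSubring L) [IsDiscreteValuationRing R]
    (hε : ε = 1 ∨ ε = -1) :
    IsGInt R (c.t L ^ ε) ∧ IsGInt R (c.t L ^ ε)⁻¹ := by
  rcases hε with rfl | rfl
  · rw [zpow_one]
    exact ⟨isGInt_of_isInt (isInt_t c), isGInt_of_isInt (isInt_t_inv c)⟩
  · rw [zpow_neg_one, inv_inv]
    exact ⟨isGInt_of_isInt (isInt_t_inv c), isGInt_of_isInt (isInt_t c)⟩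

theorem MidC_coe_tF_zpow' {N : ℕ} (hrN : c.r ∣ N) :
    ((c.tF L hrN ^ ε : FF L N) : LaurentSeries L) = c.t L ^ ε :=
  map_zpow₀ (FF L N).val (c.tF L hrN) ε

theorem MidC_coe_tVF_zpow' :
    ((c.tVF L q hrq ^ ε : FF L (q * M0)) : LaurentSeries L) = qExpand L q (c.t L ^ ε) := by
  rw [map_zpow₀]
  exact map_zpow₀ (FF L (q * M0)).val (c.tVF L q hrq) ε

theorem MidC_tVF_zpow_inv_mem_gaussO (hε : ε = 1 ∨ ε = -1) :
    (c.tVF L q hrq ^ ε)⁻¹ ∈ gaussO R (q * M0) := by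
  rw [mem_gaussO, IntermediateField.coe_inv, MidC_coe_tVF_zpow', ← map_inv₀]
  exact Val.isGInt_qExpand q (MidC_isGInt_t_zpow c R hε).2

/-- the nonunits of a valuation subring are stable under multiplication by elements. -/
theorem MidC_mul_mem_nonunits {F : Type*} [Field F] (A : ValuationSubring F) {x y : F}
    (hx : x ∈ A.nonunits) (hy : y ∈ A) : x * y ∈ A.nonunits := by
  rw [ValuationSubring.mem_nonunits_iff_exists_mem_maximalIdeal] at hx ⊢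
  obtain ⟨hxA, hxm⟩ := hx
  exact ⟨A.mul_mem _ _ hxA hy, Ideal.mul_mem_right (⟨y, hy⟩ : A) _ hxm⟩

theorem MidC_neg_mem_nonunits {F : Type*} [Field F] (A : ValuationSubring F) {x : F}
    (hx : x ∈ A.nonunits) : -x ∈ A.nonunits := by
  have := MidC_mul_mem_nonunits A hx (A.neg_mem _ A.one_mem)
  rwa [mul_neg, mul_one] at this

/-- `e ≡ 1` at `∞`. -/
theorem ea_sub_one_mem (ht : TPar R q M0 ϖ (c.tF L hr ^ ε)) (hε : ε = 1 ∨ ε = -1) :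
    (c.tF L hr1 ^ ε) ^ q / c.tVF L q hrq ^ ε - 1 ∈ (gaussO R (q * M0)).nonunits := by
  have h0 : c.tVF L q hrq ^ ε ≠ 0 := zpow_ne_zero _ (tVF_ne_zero c hrq)
  have e : (c.tF L hr1 ^ ε) ^ q / c.tVF L q hrq ^ ε - 1 =
      -(c.tVF L q hrq ^ ε - (c.tF L hr1 ^ ε) ^ q) * (c.tVF L q hrq ^ ε)⁻¹ := by
    field_simp
    ring
  rw [e]
  exact MidC_mul_mem_nonunits _ (MidC_neg_mem_nonunits _ (tVF_sub_mem_nonunits ht))
    (MidC_tVF_zpow_inv_mem_gaussO hε)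

/-- `w_q e = (V τ)^q / τ` is a quotient of units of `ℤ((X))`. -/
theorem ea_mem_Ozero' (C : Ctx R R' q M0 ζ ϖ) (hr : c.r ∣ M0) (hε : ε = 1 ∨ ε = -1) :
    (c.tF L hr1 ^ ε) ^ q / c.tVF L q hrq ^ ε ∈ Ozero' R q M0 := by
  rw [mem_Ozero', map_div₀, map_pow, map_zpow₀, map_zpow₀, (wQ_tF c C hr hr1 hrq).1,
    (wQ_tF c C hr hr1 hrq).2, div_eq_mul_inv, IntermediateField.coe_mul, IntermediateField.coe_pow,
    IntermediateField.coe_inv, MidC_coe_tVF_zpow', MidC_coe_tF_zpow']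
  exact ((Val.isGInt_qExpand q (MidC_isGInt_t_zpow c R hε).1).pow q).mul
    (MidC_isGInt_t_zpow c R hε).2

/-- `e ∈ C1` (`UnitInt.exists_ea_mem_chart`, `SatChart2.sat_pow`). -/
theorem ea_mem_chart (C : Ctx R R' q M0 ζ ϖ) (ht : TPar R q M0 ϖ (c.tF L hr ^ ε))
    (hε : ε = 1 ∨ ε = -1) (U : UnitInt c L q hr1 hrq hl1 hN ε)
    (hS : SatChart2 ϖ (gaussO R (q * M0)) (Ozero' R q M0) C1) :
    (c.tF L hr1 ^ ε) ^ q / c.tVF L q hrq ^ ε ∈ C1 := by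
  obtain ⟨m, hm⟩ := U.exists_ea_mem_chart C.irr
  have hϖ0 : algebraMap R (FF L (q * M0)) ϖ ^ m ≠ 0 :=
    pow_ne_zero _ (gaussRing R (q * M0) C.irr).ne_zero
  have e : algebraMap R (FF L (q * M0)) ϖ ^ m * ((c.tF L hr1 ^ ε) ^ q / c.tVF L q hrq ^ ε) /
      algebraMap R (FF L (q * M0)) ϖ ^ m = (c.tF L hr1 ^ ε) ^ q / c.tVF L q hrq ^ ε :=
    mul_div_cancel_left₀ _ hϖ0
  have h := hS.sat_pow m hm
  rw [e] at h
  refine h ?_ (ea_mem_Ozero' C hr hε)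
  have h1 := (ValuationSubring.mem_nonunits_iff_exists_mem_maximalIdeal.1
    (ea_sub_one_mem (hr1 := hr1) (hrq := hrq) ht hε)).1
  have h2 := (gaussO R (q * M0)).add_mem _ _ h1 (gaussO R (q * M0)).one_mem
  rwa [sub_add_cancel] at h2

/-! ### `ρ` -/

/-- `s ^ ε ∈ C1` (`mem_chart_of_rel`, `inv_mem_chart_of_rel`, `sF_rel`). -/
theorem sF_zpow_mem (hu : IsUnit ((c.r : ℕ) : R)) (hε : ε = 1 ∨ ε = -1) :
    c.sF L hl1 ^ ε ∈ C1 := by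
  rcases hε with rfl | rfl
  · simp only [zpow_one]
    exact mem_chart_of_rel c (sF_rel c hr1 hl1)
  · simp only [zpow_neg_one]
    exact inv_mem_chart_of_rel c hu (tF_ne_zero c hr1) (sF_ne_zero c hl1) (sF_rel c hr1 hl1)

/-- `(V s) ^ ε ∈ chart R {(V t)^ε} ≤ C1` (`sVF_rel`, `Val.chart_le_chart`, `tVF_zpow_mem`). -/
theorem sVF_zpow_mem (ht : TPar R q M0 ϖ (c.tF L hr ^ ε)) (hu : IsUnit ((c.r : ℕ) : R))
    (hε : ε = 1 ∨ ε = -1) : c.sVF L q hN ^ ε ∈ C1 := by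
  have hrq : c.r * q ∣ q * M0 := (Nat.mul_dvd_mul_right c.r_dvd_lvl q).trans hN
  have h1 : c.sVF L q hN ^ ε ∈ chart R ({c.tVF L q hrq ^ ε} : Set (FF L (q * M0))) := by
    rcases hε with rfl | rfl
    · simp only [zpow_one]
      exact mem_chart_of_rel c (sVF_rel c hrq hN)
    · simp only [zpow_neg_one]
      exact inv_mem_chart_of_rel c hu (tVF_ne_zero c hrq) (sVF_ne_zero c hN) (sVF_rel c hrq hN)
  refine Val.chart_le_chart (fun s hs => ?_) h1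
  rw [Set.mem_singleton_iff.1 hs]
  exact tVF_zpow_mem ht

theorem MidC_rn_mem {A F : Type*} [CommRing A] [Field F] [Algebra A F] (S : Subalgebra A F) {x : F}
    (hx : x ∈ S) : c.rn x ∈ S := by
  have h := c.map_rn (S.val : S →+* F) ⟨x, hx⟩
  have h2 : c.rn x = ((c.rn (⟨x, hx⟩ : S) : S) : F) := h.symm
  rw [h2]
  exact (c.rn (⟨x, hx⟩ : S)).2

theorem MidC_rn'_mem {A F : Type*} [CommRing A] [Field F] [Algebra A F] (S : Subalgebra A F) {x : F}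
    (hx : x ∈ S) : c.rn' x ∈ S := by
  have h := map_rn' c (S.val : S →+* F) ⟨x, hx⟩
  have h2 : c.rn' x = ((c.rn' (⟨x, hx⟩ : S) : S) : F) := h.symm
  rw [h2]
  exact (c.rn' (⟨x, hx⟩ : S)).2

theorem rhoF_mem (ht : TPar R q M0 ϖ (c.tF L hr ^ ε)) (hu : IsUnit ((c.r : ℕ) : R))
    (hε : ε = 1 ∨ ε = -1) : rhoF c L q hl1 hN ε ∈ C1 := by
  have h1 : c.sF L hl1 ^ ε ∈ C1 := sF_zpow_mem hu hε
  have h2 : c.sVF L q hN ^ ε ∈ C1 := sVF_zpow_mem ht hu hε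
  unfold rhoF
  rcases hε with rfl | rfl
  · rw [if_pos rfl]
    rw [zpow_one (c.sF L hl1)] at h1
    rw [zpow_one (c.sVF L q hN)] at h2
    exact mul_mem (MidC_rn_mem _ h1) (MidC_rn_mem _ h2)
  · rw [if_neg (by norm_num)]
    rw [zpow_neg_one (c.sF L hl1)] at h1
    rw [zpow_neg_one (c.sVF L q hN)] at h2
    exact mul_mem (MidC_rn'_mem _ h1) (MidC_rn'_mem _ h2)

/-! ### abstract avoidance lemmas in a subalgebra -/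

section AbsAvoid

variable {A₀ F₀ : Type*} [CommRing A₀] [Field F₀] [Algebra A₀ F₀] (S₀ : Subalgebra A₀ F₀)
  (𝔫₀ : Ideal S₀) [𝔫₀.IsPrime]

theorem MidC_avoid_pos (hr : ((c.r : ℕ) : S₀) ∉ 𝔫₀) {t s : F₀} (ht : t ∈ S₀) (hs : s ∈ S₀)
    (h : s ^ c.r = t * c.wv s) (ht𝔫 : (⟨t, ht⟩ : S₀) ∈ 𝔫₀) (hm : c.rn s ∈ S₀) :
    (⟨c.rn s, hm⟩ : S₀) ∉ 𝔫₀ := by
  have r1 : (⟨s, hs⟩ : S₀) ^ c.r = (⟨t, ht⟩ : S₀) * c.wv (⟨s, hs⟩ : S₀) := by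
    apply Subtype.ext
    have e1 : ((c.wv (⟨s, hs⟩ : S₀) : S₀) : F₀) = c.wv s := c.map_wv (S₀.val : S₀ →+* F₀) ⟨s, hs⟩
    rw [SubmonoidClass.coe_pow, MulMemClass.coe_mul, e1]
    exact h
  have n1 := rn_not_mem c 𝔫₀ hr r1 ht𝔫
  have e2 : (⟨c.rn s, hm⟩ : S₀) = c.rn (⟨s, hs⟩ : S₀) :=
    Subtype.ext (c.map_rn (S₀.val : S₀ →+* F₀) ⟨s, hs⟩).symm
  rw [e2]
  exact n1

theorem MidC_avoid_neg {τ σ : F₀} (hτ : τ ∈ S₀) (hσ : σ ∈ S₀)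
    (h : τ = σ * wvRev c σ) (hτ𝔫 : (⟨τ, hτ⟩ : S₀) ∈ 𝔫₀) (hm : c.rn' σ ∈ S₀) :
    (⟨c.rn' σ, hm⟩ : S₀) ∉ 𝔫₀ := by
  have r1 : (⟨τ, hτ⟩ : S₀) = (⟨σ, hσ⟩ : S₀) * wvRev c (⟨σ, hσ⟩ : S₀) := by
    apply Subtype.ext
    have e1 : ((wvRev c (⟨σ, hσ⟩ : S₀) : S₀) : F₀) = wvRev c σ :=
      map_wvRev c (S₀.val : S₀ →+* F₀) ⟨σ, hσ⟩
    rw [MulMemClass.coe_mul, e1]
    exact h
  have n1 := rn'_not_mem c 𝔫₀ r1 hτ𝔫
  have e2 : (⟨c.rn' σ, hm⟩ : S₀) = c.rn' (⟨σ, hσ⟩ : S₀) :=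
    Subtype.ext (map_rn' c (S₀.val : S₀ →+* F₀) ⟨σ, hσ⟩).symm
  rw [e2]
  exact n1

omit [𝔫₀.IsPrime] in
theorem MidC_not_mem_of_eq_mul (h𝔫 : 𝔫₀.IsPrime) {x a b : F₀} (hx : x ∈ S₀) (e : x = a * b)
    (ha : a ∈ S₀) (hb : b ∈ S₀) (na : (⟨a, ha⟩ : S₀) ∉ 𝔫₀) (nb : (⟨b, hb⟩ : S₀) ∉ 𝔫₀) :
    (⟨x, hx⟩ : S₀) ∉ 𝔫₀ := by
  have e2 : (⟨x, hx⟩ : S₀) = (⟨a, ha⟩ : S₀) * (⟨b, hb⟩ : S₀) := Subtype.ext e
  rw [e2]
  intro hmem
  exact (h𝔫.mem_or_mem hmem).elim na nb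

omit [𝔫₀.IsPrime] in
theorem MidC_mem_of_sub_pow {n : ℕ} (hn : n ≠ 0) {τ τV : F₀} (hτ : τ ∈ S₀) (hτV : τV ∈ S₀)
    (hsub : τV - τ ^ n ∈ S₀) (h1 : (⟨τ, hτ⟩ : S₀) ∈ 𝔫₀) (h2 : (⟨τV - τ ^ n, hsub⟩ : S₀) ∈ 𝔫₀) :
    (⟨τV, hτV⟩ : S₀) ∈ 𝔫₀ := by
  have e : (⟨τV, hτV⟩ : S₀) = (⟨τV - τ ^ n, hsub⟩ : S₀) + (⟨τ, hτ⟩ : S₀) ^ n := by
    apply Subtype.ext
    rw [AddMemClass.coe_add, SubmonoidClass.coe_pow]
    exact (sub_add_cancel _ _).symm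
  rw [e]
  exact 𝔫₀.add_mem h2 (𝔫₀.pow_mem_of_mem h1 n (Nat.pos_of_ne_zero hn))

omit [𝔫₀.IsPrime] in
theorem MidC_natCast_not_mem (h𝔫 : 𝔫₀.IsPrime) {n : ℕ} (hu : IsUnit ((n : ℕ) : A₀)) :
    ((n : ℕ) : S₀) ∉ 𝔫₀ := by
  intro h1
  have h2 : IsUnit ((n : ℕ) : S₀) := by
    have h3 := hu.map (algebraMap A₀ S₀)
    rwa [map_natCast] at h3
  exact h𝔫.ne_top (Ideal.eq_top_of_isUnit_mem _ h1 h2)

end AbsAvoid

theorem MidC_mem_vert {A₀ : Type*} [CommRing A₀] [IsDomain A₀] [IsDiscreteValuationRing A₀]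
    {F₀ : Type*} [Field F₀] [Algebra A₀ F₀] {ϖ₀ : A₀} {𝒪 : ValuationSubring F₀}
    (hG : GaussRing ϖ₀ 𝒪) (S₀ : Subalgebra A₀ F₀) {x : F₀} (hx : x ∈ S₀) (h : x ∈ 𝒪.nonunits) :
    (⟨x, hx⟩ : S₀) ∈ vert ϖ₀ 𝒪 S₀ := by
  apply Ideal.subset_span
  show x / algebraMap A₀ F₀ ϖ₀ ∈ 𝒪
  rcases hG.unif x (𝒪.nonunits_subset h) with h4 | h4
  · exact h4
  · by_cases hx0 : x = 0
    · rw [hx0, zero_div]
      exact zero_mem _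
    · exfalso
      rw [ValuationSubring.mem_nonunits_iff] at h
      rw [← 𝒪.valuation_le_one_iff x⁻¹, map_inv₀,
        inv_le_one₀ (zero_lt_iff.2 ((map_ne_zero 𝒪.valuation).2 hx0))] at h4
      exact absurd h (not_lt.2 h4)

/-- AVOIDANCE: `ρ` does not vanish at the cusps of the component `∞`
(`rn_not_mem`, `rn'_not_mem` in the ring `C1`, for `(τ, s^ε)` and for `(V τ, (V s)^ε)`;
`V τ ∈ 𝔫` since `V τ - τ^q ∈ vert`: `tVF_sub_mem_nonunits`, `GaussRing`/`div_mem_iff_mem_nonunits`;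
`r ∉ 𝔫` since `r` is a unit). -/
theorem rhoF_not_mem (C : Ctx R R' q M0 ζ ϖ) (ht : TPar R q M0 ϖ (c.tF L hr ^ ε))
    (hu : IsUnit ((c.r : ℕ) : R)) (hε : ε = 1 ∨ ε = -1) (h : rhoF c L q hl1 hN ε ∈ C1)
    (𝔫 : Ideal C1) (h𝔫 : 𝔫.IsPrime) (hv : vert ϖ (gaussO R (q * M0)) C1 ≤ 𝔫)
    (hτ : (⟨c.tF L hr1 ^ ε, Val.subset_chart rfl⟩ : C1) ∈ 𝔫) :
    (⟨rhoF c L q hl1 hN ε, h⟩ : C1) ∉ 𝔫 := by
  have hG : GaussRing ϖ (gaussO R (q * M0)) := gaussRing R (q * M0) C.irr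
  have hq0 : q ≠ 0 := NeZero.ne q
  have hrq : c.r * q ∣ q * M0 := (Nat.mul_dvd_mul_right c.r_dvd_lvl q).trans hN
  haveI := h𝔫
  have hr𝔫 : ((c.r : ℕ) : C1) ∉ 𝔫 := MidC_natCast_not_mem _ 𝔫 h𝔫 hu
  have hτm : c.tF L hr1 ^ ε ∈ C1 := Val.subset_chart rfl
  have hVm : c.tVF L q hrq ^ ε ∈ C1 := tVF_zpow_mem ht
  have hsub : c.tVF L q hrq ^ ε - (c.tF L hr1 ^ ε) ^ q ∈ C1 := sub_mem hVm (pow_mem hτm q)
  have hVτ : (⟨c.tVF L q hrq ^ ε, hVm⟩ : C1) ∈ 𝔫 :=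
    MidC_mem_of_sub_pow _ 𝔫 hq0 hτm hVm hsub hτ
      (hv (MidC_mem_vert hG _ hsub (tVF_sub_mem_nonunits ht)))
  have hs : c.sF L hl1 ^ ε ∈ C1 := sF_zpow_mem hu hε
  have hVs : c.sVF L q hN ^ ε ∈ C1 := sVF_zpow_mem ht hu hε
  rcases hε with rfl | rfl
  · -- `ε = 1`
    have r1 : (c.sF L hl1 ^ (1 : ℤ)) ^ c.r = c.tF L hr1 ^ (1 : ℤ) * c.wv (c.sF L hl1 ^ (1 : ℤ)) := by
      rw [zpow_one, zpow_one]
      exact sF_rel c hr1 hl1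
    have r2 : (c.sVF L q hN ^ (1 : ℤ)) ^ c.r =
        c.tVF L q hrq ^ (1 : ℤ) * c.wv (c.sVF L q hN ^ (1 : ℤ)) := by
      rw [zpow_one, zpow_one]
      exact sVF_rel c hrq hN
    have e : rhoF c L q hl1 hN 1 = c.rn (c.sF L hl1 ^ (1 : ℤ)) * c.rn (c.sVF L q hN ^ (1 : ℤ)) := by
      rw [zpow_one, zpow_one, rhoF, if_pos rfl]
    exact MidC_not_mem_of_eq_mul _ 𝔫 h𝔫 h e (MidC_rn_mem _ hs) (MidC_rn_mem _ hVs)
      (MidC_avoid_pos _ 𝔫 hr𝔫 hτm hs r1 hτ _) (MidC_avoid_pos _ 𝔫 hr𝔫 hVm hVs r2 hVτ _)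
  · -- `ε = -1`
    have r1 : c.tF L hr1 ^ (-1 : ℤ) = c.sF L hl1 ^ (-1 : ℤ) * wvRev c (c.sF L hl1 ^ (-1 : ℤ)) := by
      rw [zpow_neg_one, zpow_neg_one]
      exact inv_eq_of_rel c (tF_ne_zero c hr1) (sF_ne_zero c hl1) (sF_rel c hr1 hl1)
    have r2 : c.tVF L q hrq ^ (-1 : ℤ) =
        c.sVF L q hN ^ (-1 : ℤ) * wvRev c (c.sVF L q hN ^ (-1 : ℤ)) := by
      rw [zpow_neg_one, zpow_neg_one]
      exact inv_eq_of_rel c (tVF_ne_zero c hrq) (sVF_ne_zero c hN) (sVF_rel c hrq hN)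
    have e : rhoF c L q hl1 hN (-1) =
        c.rn' (c.sF L hl1 ^ (-1 : ℤ)) * c.rn' (c.sVF L q hN ^ (-1 : ℤ)) := by
      rw [zpow_neg_one, zpow_neg_one, rhoF, if_neg (by norm_num)]
    exact MidC_not_mem_of_eq_mul _ 𝔫 h𝔫 h e (MidC_rn'_mem _ hs) (MidC_rn'_mem _ hVs)
      (MidC_avoid_neg _ 𝔫 hτm hs r1 hτ _) (MidC_avoid_neg _ 𝔫 hVm hVs r2 hVτ _)

end

end Fermat.Agent.GT.Loc
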