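import Fermat.Agent.C36.Unit.GammaT
import Fermat.Agent.GT.Val.Tower.Basic

/-!
GT-LOC, concrete layer, file `Rel`: pure algebra on the relation `s ^ r = t * w(s)` between the
Hauptmoduln `t` of `X₀(r)` and `s` of `X₀(r²)`
(`two`: `s² = t (s + 16)`; `three`: `s³ = t (s² + 9 s + 27)`).
-/

set_option autoImplicit false

namespace Fermat.Agent.GT.Loc

open Fermat.Agent.GR.E Fermat.Agent.C36.Unit

/-- `x ^ (deg w) * w (1 / x)`. -/
def wvRev (c : BaseCase) {A : Type*} [CommRing A] (x : A) : A :=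
  match c with
  | .two => 1 + 16 * x
  | .three => 1 + 9 * x + 27 * x ^ 2

variable (c : BaseCase)

theorem map_wvRev {A B : Type*} [CommRing A] [CommRing B] (f : A →+* B) (x : A) :
    f (wvRev c x) = wvRev c (f x) := by cases c <;> simp [wvRev, map_ofNat]

theorem map_rn' {A B : Type*} [CommRing A] [CommRing B] (f : A →+* B) (x : A) :
    f (c.rn' x) = c.rn' (f x) := by cases c <;> simp [BaseCase.rn', map_ofNat]

/-! ### the relation for the inverses -/

/-- auxiliary: a root of `X² = a X + b`. -/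
theorem Rel_isIntegral_two {A F : Type*} [CommRing A] [CommRing F] [Algebra A F] (a b : A) (x : F)
    (h : x ^ 2 = algebraMap A F a * x + algebraMap A F b) : IsIntegral A x := by
  refine ⟨Polynomial.X ^ 2 - (Polynomial.C a * Polynomial.X + Polynomial.C b), ?_, ?_⟩
  · apply Polynomial.monic_X_pow_sub
    refine (Polynomial.degree_linear_le (a := a) (b := b)).trans_lt ?_
    norm_num
  · simp only [Polynomial.eval₂_sub, Polynomial.eval₂_add, Polynomial.eval₂_mul,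
      Polynomial.eval₂_pow, Polynomial.eval₂_X, Polynomial.eval₂_C]
    rw [h]; ring

/-- auxiliary: a root of `X³ = a X² + b X + c`. -/
theorem Rel_isIntegral_three {A F : Type*} [CommRing A] [CommRing F] [Algebra A F] (a b c : A)
    (x : F)
    (h : x ^ 3 = algebraMap A F a * x ^ 2 + algebraMap A F b * x + algebraMap A F c) :
    IsIntegral A x := by
  refine ⟨Polynomial.X ^ 3 - (Polynomial.C a * Polynomial.X ^ 2 + Polynomial.C b * Polynomial.X
    + Polynomial.C c), ?_, ?_⟩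
  · apply Polynomial.monic_X_pow_sub
    refine (Polynomial.degree_quadratic_le (a := a) (b := b) (c := c)).trans_lt ?_
    norm_num
  · simp only [Polynomial.eval₂_sub, Polynomial.eval₂_add, Polynomial.eval₂_mul,
      Polynomial.eval₂_pow, Polynomial.eval₂_X, Polynomial.eval₂_C]
    rw [h]; ring

/-- `t⁻¹ = σ * wvRev σ`, `σ = s⁻¹`. -/
theorem inv_eq_of_rel {F : Type*} [Field F] {t s : F} (ht : t ≠ 0) (hs : s ≠ 0)
    (h : s ^ c.r = t * c.wv s) : t⁻¹ = s⁻¹ * wvRev c s⁻¹ := by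
  cases c
  · simp only [BaseCase.r, BaseCase.wv, wvRev] at *
    field_simp
    linear_combination h
  · simp only [BaseCase.r, BaseCase.wv, wvRev] at *
    field_simp
    linear_combination h

/-! ### integrality -/

section Chart

variable {R : Type*} [CommRing R] {F : Type*} [Field F] [Algebra R F]

/-- `s` is a root of the monic polynomial `X ^ r - t * w(X)` over `R[t]`. -/
theorem mem_chart_of_rel {t s : F} (h : s ^ c.r = t * c.wv s) : s ∈ chart R ({t} : Set F) := by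
  rw [mem_chart]
  have hT : t ∈ Algebra.adjoin R ({t} : Set F) := Algebra.subset_adjoin rfl
  cases c
  · simp only [BaseCase.r, BaseCase.wv] at *
    refine Rel_isIntegral_two (⟨t, hT⟩ : Algebra.adjoin R ({t} : Set F))
      (16 * (⟨t, hT⟩ : Algebra.adjoin R ({t} : Set F))) s ?_
    rw [map_mul, map_ofNat]
    change s ^ 2 = t * s + 16 * t
    linear_combination h
  · simp only [BaseCase.r, BaseCase.wv] at *
    refine Rel_isIntegral_three (⟨t, hT⟩ : Algebra.adjoin R ({t} : Set F))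
      (9 * (⟨t, hT⟩ : Algebra.adjoin R ({t} : Set F)))
      (27 * (⟨t, hT⟩ : Algebra.adjoin R ({t} : Set F))) s ?_
    rw [map_mul, map_mul, map_ofNat, map_ofNat]
    change s ^ 3 = t * s ^ 2 + 9 * t * s + 27 * t
    linear_combination h

/-- `u = t⁻¹ s` satisfies `u² = u + 16 t⁻¹`, resp. `u³ = u² + 9 t⁻¹ u + 27 t⁻¹ ²`. -/
theorem inv_mul_mem_chart_of_rel {t s : F} (ht : t ≠ 0) (h : s ^ c.r = t * c.wv s) :
    t⁻¹ * s ∈ chart R ({t⁻¹} : Set F) := by
  rw [mem_chart]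
  have hT : t⁻¹ ∈ Algebra.adjoin R ({t⁻¹} : Set F) := Algebra.subset_adjoin rfl
  cases c
  · simp only [BaseCase.r, BaseCase.wv] at *
    refine Rel_isIntegral_two (1 : Algebra.adjoin R ({t⁻¹} : Set F))
      (16 * (⟨t⁻¹, hT⟩ : Algebra.adjoin R ({t⁻¹} : Set F))) (t⁻¹ * s) ?_
    rw [map_mul, map_ofNat, map_one]
    change (t⁻¹ * s) ^ 2 = 1 * (t⁻¹ * s) + 16 * t⁻¹
    field_simp
    linear_combination h
  · simp only [BaseCase.r, BaseCase.wv] at *
    refine Rel_isIntegral_three (1 : Algebra.adjoin R ({t⁻¹} : Set F))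
      (9 * (⟨t⁻¹, hT⟩ : Algebra.adjoin R ({t⁻¹} : Set F)))
      (27 * (⟨t⁻¹, hT⟩ : Algebra.adjoin R ({t⁻¹} : Set F)) ^ 2) (t⁻¹ * s) ?_
    rw [map_mul, map_mul, map_ofNat, map_ofNat, map_one, map_pow]
    change (t⁻¹ * s) ^ 3 = 1 * (t⁻¹ * s) ^ 2 + 9 * t⁻¹ * (t⁻¹ * s) + 27 * t⁻¹ ^ 2
    field_simp
    linear_combination h

/-- `σ = s⁻¹` satisfies `16 σ² + σ - t⁻¹ = 0`, resp. `27 σ³ + 9 σ² + σ - t⁻¹ = 0`, and `16`, `27` are
units of `R`. -/
theorem inv_mem_chart_of_rel (hu : IsUnit ((c.r : ℕ) : R)) {t s : F} (ht : t ≠ 0) (hs : s ≠ 0)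
    (h : s ^ c.r = t * c.wv s) : s⁻¹ ∈ chart R ({t⁻¹} : Set F) := by
  have hrel := inv_eq_of_rel c ht hs h
  have hT : t⁻¹ ∈ Algebra.adjoin R ({t⁻¹} : Set F) := Algebra.subset_adjoin rfl
  cases c
  · simp only [BaseCase.r, BaseCase.wv, wvRev] at *
    have h16 : 16 * s⁻¹ ∈ chart R ({t⁻¹} : Set F) := by
      rw [mem_chart]
      refine Rel_isIntegral_two (-1 : Algebra.adjoin R ({t⁻¹} : Set F))
        (16 * (⟨t⁻¹, hT⟩ : Algebra.adjoin R ({t⁻¹} : Set F))) (16 * s⁻¹) ?_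
      rw [map_mul, map_ofNat, map_neg, map_one]
      change (16 * s⁻¹) ^ 2 = -1 * (16 * s⁻¹) + 16 * t⁻¹
      rw [hrel]; ring
    obtain ⟨u, hu'⟩ := hu.pow 4
    have h1 : ((↑u⁻¹ : R)) • (16 * s⁻¹) ∈ chart R ({t⁻¹} : Set F) :=
      Subalgebra.smul_mem _ h16 _
    have h2 : ((↑u⁻¹ : R)) • (16 * s⁻¹) = s⁻¹ := by
      have h3 : (16 : F) = algebraMap R F (↑u : R) := by
        rw [hu']; simp only [Nat.cast_ofNat, map_pow, map_ofNat]; norm_num
      rw [Algebra.smul_def, h3, ← mul_assoc, ← map_mul, Units.inv_mul, map_one, one_mul]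
    rwa [h2] at h1
  · simp only [BaseCase.r, BaseCase.wv, wvRev] at *
    have h27 : 27 * s⁻¹ ∈ chart R ({t⁻¹} : Set F) := by
      rw [mem_chart]
      refine Rel_isIntegral_three (-9 : Algebra.adjoin R ({t⁻¹} : Set F)) (-27)
        (729 * (⟨t⁻¹, hT⟩ : Algebra.adjoin R ({t⁻¹} : Set F))) (27 * s⁻¹) ?_
      rw [map_mul, map_ofNat, map_neg, map_neg, map_ofNat, map_ofNat]
      change (27 * s⁻¹) ^ 3 = -9 * (27 * s⁻¹) ^ 2 + -27 * (27 * s⁻¹) + 729 * t⁻¹
      rw [hrel]; ring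
    obtain ⟨u, hu'⟩ := hu.pow 3
    have h1 : ((↑u⁻¹ : R)) • (27 * s⁻¹) ∈ chart R ({t⁻¹} : Set F) :=
      Subalgebra.smul_mem _ h27 _
    have h2 : ((↑u⁻¹ : R)) • (27 * s⁻¹) = s⁻¹ := by
      have h3 : (27 : F) = algebraMap R F (↑u : R) := by
        rw [hu']; simp only [Nat.cast_ofNat, map_pow, map_ofNat]; norm_num
      rw [Algebra.smul_def, h3, ← mul_assoc, ← map_mul, Units.inv_mul, map_one, one_mul]
    rwa [h2] at h1

end Chart

/-! ### avoidance -/

section Avoid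

variable {A : Type*} [CommRing A] (𝔫 : Ideal A) [𝔫.IsPrime]

/-- at a point with `t = 0` we have `s = 0`, and `rn 0 = 32`, resp. `81`. -/
theorem rn_not_mem (hr : ((c.r : ℕ) : A) ∉ 𝔫) {t s : A} (h : s ^ c.r = t * c.wv s) (ht : t ∈ 𝔫) :
    c.rn s ∉ 𝔫 := by
  have hs : s ∈ 𝔫 := by
    apply Ideal.IsPrime.mem_of_pow_mem (inferInstance : 𝔫.IsPrime) c.r
    rw [h]
    exact Ideal.mul_mem_right _ _ ht
  intro hmem
  apply hr
  cases c
  · simp only [BaseCase.r, BaseCase.rn] at *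
    have h32 : ((2 : ℕ) : A) ^ 5 ∈ 𝔫 := by
      have : ((2 : ℕ) : A) ^ 5 = (s + 32) - s := by
        simp only [Nat.cast_ofNat]; ring
      rw [this]
      exact Ideal.sub_mem _ hmem hs
    exact Ideal.IsPrime.mem_of_pow_mem (inferInstance : 𝔫.IsPrime) 5 h32
  · simp only [BaseCase.r, BaseCase.rn] at *
    have h9 : s + 9 ∈ 𝔫 := Ideal.IsPrime.mem_of_pow_mem (inferInstance : 𝔫.IsPrime) 2 hmem
    have h32 : ((3 : ℕ) : A) ^ 2 ∈ 𝔫 := by
      have : ((3 : ℕ) : A) ^ 2 = (s + 9) - s := by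
        simp only [Nat.cast_ofNat]; ring
      rw [this]
      exact Ideal.sub_mem _ h9 hs
    exact Ideal.IsPrime.mem_of_pow_mem (inferInstance : 𝔫.IsPrime) 2 h32

/-- at a point with `τ = 0` we have `σ = 0` or `wvRev σ = 0`;
`two`: `2 (1 + 16 σ) - (1 + 32 σ) = 1`; `three`: `3 (1 + 9 σ + 27 σ²) - (9 σ + 1) (9 σ + 2) = 1`. -/
theorem rn'_not_mem {τ σ : A} (h : τ = σ * wvRev c σ) (hτ : τ ∈ 𝔫) : c.rn' σ ∉ 𝔫 := by
  intro hmem
  have hp : 𝔫.IsPrime := inferInstance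
  apply hp.ne_top
  rw [Ideal.eq_top_iff_one]
  rw [h] at hτ
  cases c
  · simp only [BaseCase.rn', wvRev] at *
    rcases hp.mem_or_mem hτ with h1 | h1
    · have : (1 : A) = (1 + 32 * σ) - 32 * σ := by ring
      rw [this]
      exact Ideal.sub_mem _ hmem (Ideal.mul_mem_left _ _ h1)
    · have : (1 : A) = 2 * (1 + 16 * σ) - (1 + 32 * σ) := by ring
      rw [this]
      exact Ideal.sub_mem _ (Ideal.mul_mem_left _ _ h1) hmem
  · simp only [BaseCase.rn', wvRev] at *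
    have h9 : 1 + 9 * σ ∈ 𝔫 := hp.mem_of_pow_mem 2 hmem
    rcases hp.mem_or_mem hτ with h1 | h1
    · have : (1 : A) = (1 + 9 * σ) - 9 * σ := by ring
      rw [this]
      exact Ideal.sub_mem _ h9 (Ideal.mul_mem_left _ _ h1)
    · have : (1 : A) = 3 * (1 + 9 * σ + 27 * σ ^ 2) - (9 * σ + 2) * (1 + 9 * σ) := by ring
      rw [this]
      exact Ideal.sub_mem _ (Ideal.mul_mem_left _ _ h1) (Ideal.mul_mem_left _ _ h9)

end Avoid

end Fermat.Agent.GT.Loc
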