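import Fermat.Agent.GT.Val.Gauss.Formal
import Fermat.Agent.C36.Unit.Theta

/-!
GT-LOC, concrete layer, file `Series`: THE SERIES COMPUTATION at the middle cusp.

`K` a field with a discrete valuation subring `RK` of residue characteristic `q`, `ζ ∈ K` a primitive
`q`-th root of unity, `λ = ζ - 1`, `θ = X d/dX`.  For an integral series `f`:
`f(ζ X) - f(X) = λ g`, `g ≡ θ f` modulo `λ`, and `λ^(q-1) / q ≡ -1` (Wilson).  Hence
`(f(ζ X) - f(X))^(q-1) / q ≡ - (θ f)^(q-1)`.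
-/

set_option autoImplicit false

set_option linter.unusedSectionVars false

namespace Fermat.Agent.GT.Loc

open Fermat.Agent.GR Fermat.Agent.GR.D.Vert Fermat.Agent.GT.Val Fermat.Agent.C36.Unit
  Fermat.Agent.S28 ModularCurve

noncomputable section

variable {K : Type*} [Field K] {RK : ValuationSubring K} [IsDiscreteValuationRing RK]

/-! ### generalities -/

theorem isGInt_of_isInt {f : LaurentSeries K} (hf : IsInt RK f) : IsGInt RK f := by
  obtain ⟨y, rfl⟩ := exists_embL_eq hf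
  exact isGInt_emb y

/-- `C a`, `a ∈ 𝔪`, reduces to `0`. -/
theorem gredFun_C_of_mem_nonunits {a : K} (ha : a ∈ RK.nonunits) :
    IsGInt RK (HahnSeries.C a : LaurentSeries K) ∧
      gredFun RK (HahnSeries.C a : LaurentSeries K) = 0 := by
  have haR : a ∈ RK := RK.nonunits_subset ha
  have e : (HahnSeries.C a : LaurentSeries K) = embL RK K (HahnSeries.C (⟨a, haR⟩ : RK)) := by
    rw [coeffMap_C]
    rfl
  rw [e]
  refine ⟨isGInt_emb _, ?_⟩
  rw [gredFun_emb, coeffMap_C]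
  have h0 : IsLocalRing.residue RK (⟨a, haR⟩ : RK) = 0 := by
    rw [IsLocalRing.residue_eq_zero_iff, IsLocalRing.mem_maximalIdeal]
    exact (ValuationSubring.mem_nonunits_iff_exists_mem_maximalIdeal.mp ha).choose_spec
  rw [h0, map_zero]

/-- `x ≡ y` if `x - y = C a * h`, `a ∈ 𝔪`, `h` Gauss-integral. -/
theorem gredFun_eq_of_sub_eq {a : K} (ha : a ∈ RK.nonunits) {x y h : LaurentSeries K}
    (hy : IsGInt RK y) (hh : IsGInt RK h) (e : x - y = HahnSeries.C a * h) :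
    IsGInt RK x ∧ gredFun RK x = gredFun RK y := by
  obtain ⟨h1, h2⟩ := gredFun_C_of_mem_nonunits (RK := RK) ha
  have ex : x = y + HahnSeries.C a * h := by rw [← e]; ring
  rw [ex]
  refine ⟨hy.add (h1.mul hh), ?_⟩
  rw [gredFun_add hy (h1.mul hh), gredFun_mul h1 hh, h2, zero_mul, add_zero]

theorem isInt_theta {f : LaurentSeries K} (hf : IsInt RK f) : IsInt RK (theta K f) := by
  intro n
  rw [theta_coeff]
  exact mul_mem (intCast_mem RK n) (hf n)

/-! ### (S1) the difference quotient -/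

theorem Series_exists_GH (c : Kˣ) (hc : (c : K) ∈ RK) (hc' : ((c⁻¹ : Kˣ) : K) ∈ RK) (n : ℤ) :
    ∃ G H : K, G ∈ RK ∧ H ∈ RK ∧ ((c ^ n : Kˣ) : K) - 1 = ((c : K) - 1) * G ∧
      G - (n : K) = ((c : K) - 1) * H := by
  induction n using Int.induction_on with
  | zero => exact ⟨0, 0, RK.zero_mem, RK.zero_mem, by simp, by simp⟩
  | succ n ih =>
    obtain ⟨G, H, hG, hH, e1, e2⟩ := ih
    refine ⟨(c : K) * G + 1, G + H, add_mem (mul_mem hc hG) RK.one_mem, add_mem hG hH,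
      ?_, ?_⟩
    · rw [zpow_add_one, Units.val_mul]
      linear_combination (c : K) * e1
    · push_cast at e2 ⊢
      linear_combination e2
  | pred n ih =>
    obtain ⟨G, H, hG, hH, e1, e2⟩ := ih
    have hcc : ((c⁻¹ : Kˣ) : K) * (c : K) = 1 := by rw [← Units.val_mul]; simp
    refine ⟨((c⁻¹ : Kˣ) : K) * (G - 1), ((c⁻¹ : Kˣ) : K) * (H - ((-(n : ℤ) - 1 : ℤ) : K)),
      mul_mem hc' (sub_mem hG RK.one_mem),
      mul_mem hc' (sub_mem hH (intCast_mem RK _)), ?_, ?_⟩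
    · rw [zpow_sub_one, Units.val_mul]
      linear_combination ((c⁻¹ : Kˣ) : K) * e1 + hcc
    · simp only [Int.cast_sub, Int.cast_neg, Int.cast_natCast, Int.cast_one] at e2 ⊢
      linear_combination ((c⁻¹ : Kˣ) : K) * e2 + (-(n : K) - 1) * hcc

/-- the series `∑ G n * f_n X^n`. -/
def Series_mulCoeff (G : ℤ → K) (f : LaurentSeries K) : LaurentSeries K where
  coeff := fun n => G n * f.coeff n
  isPWO_support' := f.isPWO_support.mono (by
    intro n hn
    simp only [Function.mem_support, ne_eq] at hn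
    exact fun h => hn (by rw [h, mul_zero]))

theorem exists_scaleHom_sub_theta (c : Kˣ) (hc : (c : K) ∈ RK) (hc' : ((c⁻¹ : Kˣ) : K) ∈ RK)
    {f : LaurentSeries K} (hf : IsInt RK f) :
    ∃ g h : LaurentSeries K, IsInt RK g ∧ IsInt RK h ∧
      scaleHom c f - f = HahnSeries.C ((c : K) - 1) * g ∧
      g - theta K f = HahnSeries.C ((c : K) - 1) * h := by
  choose G H hG hH e1 e2 using Series_exists_GH (RK := RK) c hc hc'
  refine ⟨Series_mulCoeff G f, Series_mulCoeff H f, fun n => mul_mem (hG n) (hf n),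
    fun n => mul_mem (hH n) (hf n), ?_, ?_⟩
  · ext n
    rw [HahnSeries.C_mul_eq_smul, HahnSeries.coeff_smul, smul_eq_mul, HahnSeries.coeff_sub,
      scaleHom_coeff]
    change _ = ((c : K) - 1) * (G n * f.coeff n)
    linear_combination f.coeff n * e1 n
  · ext n
    rw [HahnSeries.C_mul_eq_smul, HahnSeries.coeff_smul, smul_eq_mul, HahnSeries.coeff_sub,
      theta_coeff]
    change G n * f.coeff n - _ = ((c : K) - 1) * (H n * f.coeff n)
    linear_combination f.coeff n * e2 n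

/-! ### (S2) Wilson -/

open Fermat.Agent.GR Fermat.Agent.GR.D.Vert Fermat.Agent.GT.Val
  Fermat.Agent.S28 ModularCurve

theorem Series_nonunits_add {x y : K} (hx : x ∈ RK.nonunits) (hy : y ∈ RK.nonunits) :
    x + y ∈ RK.nonunits := by
  rw [ValuationSubring.mem_nonunits_iff] at *
  exact RK.valuation.map_add_lt hx hy

theorem Series_nonunits_mul_left {x y : K} (hx : x ∈ RK) (hy : y ∈ RK.nonunits) :
    x * y ∈ RK.nonunits := by
  rw [ValuationSubring.mem_nonunits_iff] at *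
  rw [map_mul]
  calc RK.valuation x * RK.valuation y ≤ 1 * RK.valuation y :=
        mul_le_mul' ((RK.valuation_le_one_iff x).mpr hx) le_rfl
    _ < 1 := by rwa [one_mul]

theorem Series_nonunits_mem {x : K} (hx : x ∈ RK.nonunits) : x ∈ RK := by
  rw [ValuationSubring.mem_nonunits_iff] at hx
  exact (RK.valuation_le_one_iff x).mp hx.le

theorem Series_zero_mem_nonunits : (0 : K) ∈ RK.nonunits := by
  rw [ValuationSubring.mem_nonunits_iff, map_zero]
  exact zero_lt_one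

theorem Series_nonunits_neg {x : K} (hx : x ∈ RK.nonunits) : -x ∈ RK.nonunits := by
  rw [ValuationSubring.mem_nonunits_iff] at *
  rwa [Valuation.map_neg]

/-- a product of elements `c k ≡ d k` is `≡ ∏ d k`. -/
theorem Series_prod_sub_prod_mem (s : Finset ℕ) (c d : ℕ → K) (hd : ∀ k ∈ s, d k ∈ RK)
    (hcd : ∀ k ∈ s, c k - d k ∈ RK.nonunits) :
    (∏ k ∈ s, c k) ∈ RK ∧ (∏ k ∈ s, c k) - ∏ k ∈ s, d k ∈ RK.nonunits := by
  classical
  induction s using Finset.induction_on with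
  | empty =>
    simp only [Finset.prod_empty, sub_self]
    exact ⟨RK.one_mem, Series_zero_mem_nonunits⟩
  | insert a s ha ih =>
    obtain ⟨h1, h2⟩ := ih (fun k hk => hd k (Finset.mem_insert_of_mem hk))
      (fun k hk => hcd k (Finset.mem_insert_of_mem hk))
    have hda := hd a (Finset.mem_insert_self a s)
    have hca := hcd a (Finset.mem_insert_self a s)
    have hca' : c a ∈ RK := by
      have := RK.add_mem _ _ (Series_nonunits_mem hca) hda
      rwa [sub_add_cancel] at this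
    rw [Finset.prod_insert ha, Finset.prod_insert ha]
    refine ⟨RK.mul_mem _ _ hca' h1, ?_⟩
    have e : c a * ∏ k ∈ s, c k - d a * ∏ k ∈ s, d k =
        (∏ k ∈ s, c k) * (c a - d a) + d a * ((∏ k ∈ s, c k) - ∏ k ∈ s, d k) := by ring
    rw [e]
    exact Series_nonunits_add (Series_nonunits_mul_left h1 hca) (Series_nonunits_mul_left hda h2)

/-- `(ζ^a - 1)/(ζ - 1) - a ∈ 𝔪`. -/
theorem root_pow_sub_one_div_sub {q : ℕ} (hq : q.Prime) (hqR : (q : K) ∈ RK.nonunits) (ζ : Kˣ)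
    (hζ : IsPrimitiveRoot ζ q) (a : ℕ) :
    ((ζ : K) ^ a - 1) / ((ζ : K) - 1) - (a : K) ∈ RK.nonunits := by
  have hζK : IsPrimitiveRoot (ζ : K) q := IsPrimitiveRoot.coe_units_iff.mpr hζ
  have hz1 : (ζ : K) - 1 ≠ 0 := sub_ne_zero.mpr (hζK.ne_one hq.one_lt)
  induction a with
  | zero =>
    simp only [pow_zero, sub_self, zero_div, Nat.cast_zero]
    exact Series_zero_mem_nonunits
  | succ a ih =>
    have h1 : (ζ : K) ^ a - 1 ∈ RK.nonunits := by
      have := root_sub_one_mem_nonunits (RK := RK) hq hqR (ζ ^ a)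
        (by rw [← pow_mul, mul_comm, pow_mul, hζ.pow_eq_one, one_pow])
      simpa using this
    have e : ((ζ : K) ^ (a + 1) - 1) / ((ζ : K) - 1) - ((a + 1 : ℕ) : K) =
        ((ζ : K) ^ a - 1) + (((ζ : K) ^ a - 1) / ((ζ : K) - 1) - (a : K)) := by
      push_cast
      field_simp
      ring
    rw [e]
    exact Series_nonunits_add h1 ih

/-- Wilson in `K`. -/
theorem Series_wilson {q : ℕ} (hq : q.Prime) (hqR : (q : K) ∈ RK.nonunits) :
    (((q - 1).factorial : ℕ) : K) + 1 ∈ RK.nonunits := by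
  have : Fact q.Prime := ⟨hq⟩
  have h := ZMod.wilsons_lemma q
  have h2 : (((q - 1).factorial + 1 : ℕ) : ZMod q) = 0 := by
    push_cast
    rw [h]
    ring
  rw [ZMod.natCast_eq_zero_iff] at h2
  obtain ⟨m, hm⟩ := h2
  have : (((q - 1).factorial : ℕ) : K) + 1 = (m : K) * (q : K) := by
    have := congrArg (fun x : ℕ => (x : K)) hm
    push_cast at this
    rw [this]
    ring
  rw [this]
  exact Series_nonunits_mul_left (natCast_mem RK m) hqR

/-- `q = ∏_{a=1}^{q-1} (1 - ζ^a)`, `(1 - ζ^a) = - (ζ - 1) c_a`, `c_a ≡ a`, `(q-1)! ≡ -1`: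
`q / (ζ - 1)^(q-1) ≡ (-1)^(q-1) (q-1)! ≡ (-1)^q ≡ -1` (also for `q = 2`). -/
theorem root_sub_one_pow_div_add_one {q : ℕ} (hq : q.Prime) (hqR : (q : K) ∈ RK.nonunits)
    (ζ : Kˣ) (hζ : IsPrimitiveRoot ζ q) :
    ((ζ : K) - 1) ^ (q - 1) / (q : K) + 1 ∈ RK.nonunits := by
  have hζK : IsPrimitiveRoot (ζ : K) q := IsPrimitiveRoot.coe_units_iff.mpr hζ
  have hz1 : (ζ : K) - 1 ≠ 0 := sub_ne_zero.mpr (hζK.ne_one hq.one_lt)
  have hinv := (prime_div_root_sub_one_pow (RK := RK) hq ζ hζ).2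
  have hW := Series_wilson (RK := RK) hq hqR
  have hcong := fun a => root_pow_sub_one_div_sub (RK := RK) hq hqR ζ hζ a
  obtain ⟨n, rfl⟩ : ∃ n, q = n + 1 := ⟨q - 1, (Nat.sub_add_cancel hq.pos).symm⟩
  rw [Nat.add_sub_cancel] at hinv hW ⊢
  have hprod := hζK.prod_pow_sub_one_eq_order
  have hpow : ((ζ : K) - 1) ^ n ≠ 0 := pow_ne_zero _ hz1
  -- the unit `u = q / λ^n`
  have hu : (((n + 1 : ℕ) : K)) / ((ζ : K) - 1) ^ n =
      (-1) ^ n * ∏ k ∈ Finset.range n, (((ζ : K) ^ (k + 1) - 1) / ((ζ : K) - 1)) := by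
    rw [Finset.prod_div_distrib, Finset.prod_const, Finset.card_range]
    push_cast
    rw [← hprod]
    ring
  have hP := (Series_prod_sub_prod_mem (RK := RK) (Finset.range n)
    (fun k => ((ζ : K) ^ (k + 1) - 1) / ((ζ : K) - 1)) (fun k => ((k + 1 : ℕ) : K))
    (fun k _ => natCast_mem RK _) (fun k _ => hcong (k + 1))).2
  have hfac : ∏ k ∈ Finset.range n, ((k + 1 : ℕ) : K) = ((n.factorial : ℕ) : K) := by
    rw [← Finset.prod_range_add_one_eq_factorial]
    push_cast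
    rfl
  rw [hfac] at hP
  -- `(-1)^(n+1) + 1 ∈ 𝔪`
  have hsign : (-1 : K) ^ n * (-1) + 1 ∈ RK.nonunits := by
    rcases Nat.even_or_odd n with he | ho
    · rw [he.neg_one_pow]
      simp only [one_mul, neg_add_cancel]
      exact Series_zero_mem_nonunits
    · -- `n + 1` is an even prime, so it is `2`
      have h2 : n + 1 = 2 := by
        have : 2 ∣ n + 1 := by
          obtain ⟨k, hk⟩ := ho
          exact ⟨k + 1, by omega⟩
        exact ((Nat.prime_dvd_prime_iff_eq Nat.prime_two hq).mp this).symm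
      rw [ho.neg_one_pow]
      have : (-1 : K) * (-1) + 1 = ((n + 1 : ℕ) : K) := by
        rw [h2]; norm_num
      rw [this]
      exact hqR
  have hsgn_mem : (-1 : K) ^ n ∈ RK := RK.pow_mem (RK.neg_mem _ RK.one_mem) n
  have hu1 : (((n + 1 : ℕ) : K)) / ((ζ : K) - 1) ^ n + 1 ∈ RK.nonunits := by
    rw [hu]
    set P := ∏ k ∈ Finset.range n, (((ζ : K) ^ (k + 1) - 1) / ((ζ : K) - 1)) with hPdef
    have e : (-1 : K) ^ n * P + 1 =
        (-1 : K) ^ n * (P - ((n.factorial : ℕ) : K)) +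
          ((-1 : K) ^ n * (((n.factorial : ℕ) : K) + 1) + ((-1 : K) ^ n * (-1) + 1)) := by ring
    rw [e]
    exact Series_nonunits_add (Series_nonunits_mul_left hsgn_mem hP)
      (Series_nonunits_add (Series_nonunits_mul_left hsgn_mem hW) hsign)
  have hq0 : (((n + 1 : ℕ) : K)) ≠ 0 := by
    intro h0
    have : (-1 : K) ^ n * ∏ k ∈ Finset.range n, ((ζ : K) ^ (k + 1) - 1) = 0 := by
      rw [hprod]; exact_mod_cast h0
    rcases mul_eq_zero.mp this with h | h
    · exact pow_ne_zero n (neg_ne_zero.mpr one_ne_zero) h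
    · obtain ⟨k, hk, hk0⟩ := Finset.prod_eq_zero_iff.mp h
      have hk' := Finset.mem_range.mp hk
      exact hζK.pow_ne_one_of_pos_of_lt (by omega) (by omega) (sub_eq_zero.mp hk0)
  have e : ((ζ : K) - 1) ^ n / (((n + 1 : ℕ) : K)) + 1 =
      (((ζ : K) - 1) ^ n / (((n + 1 : ℕ) : K))) *
        ((((n + 1 : ℕ) : K)) / ((ζ : K) - 1) ^ n + 1) := by
    field_simp
    ring
  rw [e]
  exact Series_nonunits_mul_left hinv hu1

/-! ### (S3) the key congruence -/

theorem Series_gredFun_neg {x : LaurentSeries K} (hx : IsGInt RK x) :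
    gredFun RK (-x) = - gredFun RK x := by
  have h := gredFun_add hx hx.neg
  rw [add_neg_cancel, gredFun_zero] at h
  exact eq_neg_of_add_eq_zero_right h.symm

theorem Series_natCast_ne_zero {q : ℕ} (hq : q.Prime) (hqR : (q : K) ∈ RK.nonunits)
    (ζ : Kˣ) (hζ : IsPrimitiveRoot ζ q) : (q : K) ≠ 0 := by
  intro h0
  have h1 := root_sub_one_pow_div_add_one hq hqR ζ hζ
  rw [h0, div_zero, zero_add] at h1
  rw [ValuationSubring.mem_nonunits_iff_exists_mem_maximalIdeal] at h1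
  obtain ⟨h2, h3⟩ := h1
  have h4 : (⟨1, h2⟩ : RK) = 1 := rfl
  rw [h4] at h3
  exact (Ideal.ne_top_iff_one _).mp (IsLocalRing.maximalIdeal.isMaximal RK).ne_top h3

/-- `C u`, `u = (ζ-1)^(q-1)/q`, reduces to `-1`. -/
theorem Series_gredFun_C_unit {q : ℕ} (hq : q.Prime) (hqR : (q : K) ∈ RK.nonunits)
    (ζ : Kˣ) (hζ : IsPrimitiveRoot ζ q) :
    IsGInt RK (HahnSeries.C (((ζ : K) - 1) ^ (q - 1) / (q : K)) : LaurentSeries K) ∧
      gredFun RK (HahnSeries.C (((ζ : K) - 1) ^ (q - 1) / (q : K)) : LaurentSeries K) = -1 := by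
  have h1 := root_sub_one_pow_div_add_one hq hqR ζ hζ
  have h2 := gredFun_eq_of_sub_eq h1
    (x := (HahnSeries.C (((ζ : K) - 1) ^ (q - 1) / (q : K)) : LaurentSeries K))
    (y := -1) (h := 1) (IsGInt.neg isGInt_one) isGInt_one (by
      rw [map_add, map_one, mul_one, sub_neg_eq_add])
  refine ⟨h2.1, ?_⟩
  rw [h2.2, Series_gredFun_neg isGInt_one, gredFun_one]

theorem series_key {q : ℕ} (hq : q.Prime) (hqR : (q : K) ∈ RK.nonunits) (ζ : Kˣ)
    (hζ : IsPrimitiveRoot ζ q) {f : LaurentSeries K} (hf : IsInt RK f) :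
    IsGInt RK ((scaleHom ζ f - f) ^ (q - 1) / HahnSeries.C (q : K)) ∧
      gredFun RK ((scaleHom ζ f - f) ^ (q - 1) / HahnSeries.C (q : K)) =
        - gredFun RK (theta K f) ^ (q - 1) := by
  have hmem := root_mem (RK := RK) hq.pos ζ hζ.pow_eq_one
  have hl := root_sub_one_mem_nonunits (RK := RK) hq hqR ζ hζ.pow_eq_one
  obtain ⟨g, h, hg, hh, e1, e2⟩ := exists_scaleHom_sub_theta ζ hmem.1 hmem.2 hf
  obtain ⟨hu1, hu2⟩ := Series_gredFun_C_unit hq hqR ζ hζ
  obtain ⟨hg1, hg2⟩ := gredFun_eq_of_sub_eq hl (isGInt_of_isInt (isInt_theta hf))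
    (isGInt_of_isInt hh) e2
  have e : (scaleHom ζ f - f) ^ (q - 1) / HahnSeries.C (q : K) =
      HahnSeries.C (((ζ : K) - 1) ^ (q - 1) / (q : K)) * g ^ (q - 1) := by
    rw [e1, mul_pow, ← map_pow, mul_div_right_comm, ← map_div₀]
  rw [e]
  refine ⟨hu1.mul (hg1.pow _), ?_⟩
  rw [gredFun_mul hu1 (hg1.pow _), hu2, gredFun_pow hg1, hg2, neg_one_mul]

/-- the form used away from the cusps. -/
theorem series_nc {q : ℕ} (hq : q.Prime) (hqR : (q : K) ∈ RK.nonunits) (ζ : Kˣ)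
    (hζ : IsPrimitiveRoot ζ q) {f γ : LaurentSeries K} (hf : IsInt RK f) (hγ : IsGInt RK γ)
    (hγ' : gredFun RK γ = gredFun RK (theta K f) ^ (q - 1)) :
    IsGInt RK ((scaleHom ζ f - f) ^ (q - 1) / HahnSeries.C (q : K) + γ) ∧
      gredFun RK ((scaleHom ζ f - f) ^ (q - 1) / HahnSeries.C (q : K) + γ) = 0 := by
  obtain ⟨h1, h2⟩ := series_key hq hqR ζ hζ hf
  refine ⟨h1.add hγ, ?_⟩
  rw [gredFun_add h1 hγ, h2, hγ', neg_add_cancel]

/-- the form used at the cusps (`f` a unit of the ring of integral series). -/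
theorem series_cusp {q : ℕ} (hq : q.Prime) (hqR : (q : K) ∈ RK.nonunits) (ζ : Kˣ)
    (hζ : IsPrimitiveRoot ζ q) {f γ : LaurentSeries K} (hf : IsInt RK f) (hf' : IsInt RK f⁻¹)
    (hf0 : f ≠ 0) (hγ : IsGInt RK γ)
    (hγ' : gredFun RK γ = gredFun RK (theta K f * f⁻¹) ^ (q - 1)) :
    IsGInt RK ((scaleHom ζ f / f - 1) ^ (q - 1) / HahnSeries.C (q : K) + γ) ∧
      gredFun RK ((scaleHom ζ f / f - 1) ^ (q - 1) / HahnSeries.C (q : K) + γ) = 0 := by
  obtain ⟨h1, h2⟩ := series_key hq hqR ζ hζ hf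
  have hi : IsGInt RK f⁻¹ := isGInt_of_isInt hf'
  have ht : IsGInt RK (theta K f) := isGInt_of_isInt (isInt_theta hf)
  have e : (scaleHom ζ f / f - 1) ^ (q - 1) / HahnSeries.C (q : K) =
      (scaleHom ζ f - f) ^ (q - 1) / HahnSeries.C (q : K) * f⁻¹ ^ (q - 1) := by
    have e0 : scaleHom ζ f / f - 1 = (scaleHom ζ f - f) * f⁻¹ := by
      rw [sub_mul, mul_inv_cancel₀ hf0, div_eq_mul_inv]
    rw [e0, mul_pow, mul_div_right_comm]
  rw [e]
  have h3 := h1.mul (hi.pow (q - 1))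
  refine ⟨h3.add hγ, ?_⟩
  rw [gredFun_add h3 hγ, gredFun_mul h1 (hi.pow _), h2, hγ', gredFun_pow hi,
    gredFun_mul ht hi, mul_pow, neg_mul, neg_add_cancel]

end

end Fermat.Agent.GT.Loc
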