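import Fermat.Agent.GT.Loc.N1Main
import Fermat.Agent.GT.Loc.Conc.Defs
import Fermat.Agent.GS.Inst.ChartH
import Fermat.Agent.GS.Inst.Frob
import Fermat.Agent.C36.Unit.CuspInt
import Fermat.Agent.C36.Unit.GammaT

/-!
GT-LOC, concrete layer, file `UnitInst`: the concrete `UnitData` at level `q M0` from module UNIT
(`Fermat/Agent/C36/Unit`), for the two base functions `τ = t ^ ε`, `ε = ± 1`, `t = h_r`.

`D = θ / θ s`, `γ = γ₀`, `s` the Hauptmodul of `X₀(r²)`, `e = τ ^ q / τ(X ^ q)`.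
The algebra structure `FF L M0 → FF L (q M0)` is the scoped instance `GS.Inst.algFF`.
-/

set_option autoImplicit false
set_option synthInstance.maxHeartbeats 400000
set_option linter.unusedSectionVars false

namespace Fermat.Agent.GT.Loc

open Fermat.Agent.GR Fermat.Agent.GR.E Fermat.Agent.GR.D.Vert Fermat.Agent.GT.EMB
  Fermat.Agent.GS Fermat.Agent.GS.Inst Fermat.Agent.C36.Unit Fermat.Agent.S28 ModularCurve

noncomputable section

/-! ### series -/

section Series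

variable {K : Type*} [Field K] {RK : ValuationSubring K} [IsDiscreteValuationRing RK]
  (c : BaseCase)

/-- (D1) `D = θ / θ s` preserves the Gauss ring `R((X))_(ϖ)`. -/
theorem UnitInst_isGInt_Dd {x : LaurentSeries K} (hx : IsGInt RK x) : IsGInt RK (c.Dd K x) := by
  obtain ⟨s, y, hs, hy⟩ := hx
  refine ⟨s * s, s * c.Dd RK y - y * c.Dd RK s, by rw [map_mul]; exact mul_ne_zero hs hs, ?_⟩
  have h1 := congrArg (c.Dd K) hy
  rw [c.Dd_mul] at h1
  have e1 : c.Dd K (embL RK K s) = embL RK K (c.Dd RK s) := (c.coeffMap_Dd _ s).symm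
  have e2 : c.Dd K (embL RK K y) = embL RK K (c.Dd RK y) := (c.coeffMap_Dd _ y).symm
  rw [e1, e2] at h1
  rw [map_mul, map_sub, map_mul, map_mul, ← h1, ← hy]
  ring

/-- `θ (f(X ^ q)) = q (θ f)(X ^ q)` in terms of `D` and `γ₀`. -/
theorem UnitInst_Dd_qExpand (q : ℕ) [NeZero q] (A : Type*) [CommRing A] (f : LaurentSeries A) :
    c.Dd A (qExpand A q f) = (q : LaurentSeries A) * c.gamma0 q A * qExpand A q (c.Dd A f) := by
  have h1 : qExpand A q (c.thS A) * qExpand A q (c.thSInv A) = 1 := by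
    rw [← map_mul, c.thS_mul_thSInv, map_one]
  unfold BaseCase.Dd BaseCase.gamma0
  rw [theta_qExpand, map_mul]
  linear_combination (-(q : LaurentSeries A) * qExpand A q (theta A f) * c.thSInv A) * h1

theorem UnitInst_isGInt_of_isInt {f : LaurentSeries K} (hf : IsInt RK f) : IsGInt RK f := by
  obtain ⟨y, rfl⟩ := exists_embL_eq hf
  exact isGInt_emb y

end Series

/-! ### integrality of `s` over `ℤ[τ]` -/

section SInt

theorem UnitInst_isIntegral_quad {A B : Type*} [CommRing A] [CommRing B] [Algebra A B]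
    (y : B) (a0 a1 : A) (h : y ^ 2 + algebraMap A B a1 * y + algebraMap A B a0 = 0) :
    IsIntegral A y := by
  nontriviality A
  refine ⟨Polynomial.X ^ 2 + Polynomial.C a1 * Polynomial.X + Polynomial.C a0, ?_, ?_⟩
  · monicity!
  · simpa using h

theorem UnitInst_isIntegral_cubic {A B : Type*} [CommRing A] [CommRing B] [Algebra A B]
    (y : B) (a0 a1 a2 : A)
    (h : y ^ 3 + algebraMap A B a2 * y ^ 2 + algebraMap A B a1 * y + algebraMap A B a0 = 0) :
    IsIntegral A y := by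
  nontriviality A
  refine ⟨Polynomial.X ^ 3 + Polynomial.C a2 * Polynomial.X ^ 2 + Polynomial.C a1 * Polynomial.X
    + Polynomial.C a0, ?_, ?_⟩
  · monicity!
  · simpa using h

/-- `s` is integral over `R[t]`, `t⁻¹ s` is integral over `R[t⁻¹]`. -/
theorem UnitInst_s_int (c : BaseCase) {R F : Type*} [CommRing R] [Field F] [Algebra R F] (t s : F)
    (rel : s ^ c.r = t * c.wv s) (ht0 : t ≠ 0) (ε : ℤ) (hε : ε = 1 ∨ ε = -1) :
    (t ^ ε) ^ 1 * s ∈ chart R ({t ^ ε} : Set F) := by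
  set τ := t ^ ε with hτ
  let T : Algebra.adjoin R ({τ} : Set F) := ⟨τ, Algebra.subset_adjoin rfl⟩
  have hT : algebraMap (Algebra.adjoin R ({τ} : Set F)) F T = τ := rfl
  rw [pow_one, mem_chart]
  rcases hε with rfl | rfl
  · have ht : τ = t := zpow_one t
    have hs : IsIntegral (Algebra.adjoin R ({τ} : Set F)) s := by
      cases c
      · refine UnitInst_isIntegral_quad s (-(16 * T)) (-T) ?_
        simp only [BaseCase.r, BaseCase.wv] at rel
        simp only [map_neg, map_mul, hT, map_ofNat]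
        rw [ht]
        linear_combination rel
      · refine UnitInst_isIntegral_cubic s (-(27 * T)) (-(9 * T)) (-T) ?_
        simp only [BaseCase.r, BaseCase.wv] at rel
        simp only [map_neg, map_mul, hT, map_ofNat]
        rw [ht]
        linear_combination rel
    exact (isIntegral_algebraMap (x := T)).mul hs
  · have ht : τ * t = 1 := by
      rw [hτ, zpow_neg_one]
      exact inv_mul_cancel₀ ht0
    cases c
    · refine UnitInst_isIntegral_quad (τ * s) (-(16 * T)) (-1) ?_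
      simp only [BaseCase.r, BaseCase.wv] at rel
      simp only [map_neg, map_mul, hT, map_ofNat, map_one]
      linear_combination τ ^ 2 * rel + τ * (s + 16) * ht
    · refine UnitInst_isIntegral_cubic (τ * s) (-(27 * T ^ 2)) (-(9 * T)) (-1) ?_
      simp only [BaseCase.r, BaseCase.wv] at rel
      simp only [map_neg, map_mul, map_pow, hT, map_ofNat, map_one]
      linear_combination τ ^ 3 * rel + τ ^ 2 * (s ^ 2 + 9 * s + 27) * ht

end SInt

/-! ### the instance -/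

section Inst

variable (c : BaseCase) {L : Type} [Field L] [CharZero L]

/-- `D = θ / θ s` as an `R`-derivation of `FF L N`. -/
def DC (R : ValuationSubring L) {N : ℕ} [NeZero N] (hl : c.lvl ∣ N) :
    Derivation R (FF L N) (FF L N) :=
  (c.DdF L hl).restrictScalars R

@[simp] theorem coe_DC (R : ValuationSubring L) {N : ℕ} [NeZero N] (hl : c.lvl ∣ N) (f : FF L N) :
    ((DC c R hl f : FF L N) : LaurentSeries L) = c.Dd L f := rfl

variable {R : ValuationSubring L} [IsDiscreteValuationRing R]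
  {q M0 : ℕ} [NeZero q] [NeZero M0] [NeZero (q * M0)] {ϖ : R}

theorem UnitInst_dvd₁ (hl0 : c.lvl ∣ M0) : c.lvl ∣ q * M0 := hl0.mul_left q
theorem UnitInst_dvd₂ (hl0 : c.lvl ∣ M0) : c.lvl * q ∣ q * M0 := by
  rw [mul_comm q M0]; exact mul_dvd_mul_right hl0 q
theorem UnitInst_dvd₃ (hl0 : c.lvl ∣ M0) : c.r ∣ M0 := c.r_dvd_lvl.trans hl0
theorem UnitInst_dvd₄ (hl0 : c.lvl ∣ M0) : c.r ∣ q * M0 := (c.r_dvd_lvl.trans hl0).mul_left q
theorem UnitInst_dvd₅ (hl0 : c.lvl ∣ M0) : c.r * q ∣ q * M0 := by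
  rw [mul_comm q M0]; exact mul_dvd_mul_right (c.r_dvd_lvl.trans hl0) q

theorem UnitInst_isWq (ι : L →+* ℂ) (hq : q.Prime) (hqM : ¬ q ∣ M0) : IsWq L q M0 (wQ L q M0) :=
  isWq_of_isWQ ι hq hqM (isWQ_wQ ι hq hqM)

theorem UnitInst_map_tF (hl0 : c.lvl ∣ M0) (ε : ℤ) :
    algebraMap (FF L M0) (FF L (q * M0)) (c.tF L (UnitInst_dvd₃ c hl0) ^ ε) =
      c.tF L (UnitInst_dvd₄ c hl0) ^ ε := by
  rw [map_zpow₀]
  congr 1

theorem UnitInst_w_tF (ι : L →+* ℂ) (hq : q.Prime) (hqM : ¬ q ∣ M0) (hl0 : c.lvl ∣ M0) (ε : ℤ) :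
    wQ L q M0 (c.tF L (UnitInst_dvd₄ c hl0) ^ ε) = c.tVF L q (UnitInst_dvd₅ c hl0) ^ ε := by
  rw [map_zpow₀]
  congr 1
  have h := (UnitInst_isWq ι hq hqM).onF1 (c.tF L (UnitInst_dvd₃ c hl0))
  have e : algebraMap (FF L M0) (FF L (q * M0)) (c.tF L (UnitInst_dvd₃ c hl0)) =
      c.tF L (UnitInst_dvd₄ c hl0) := Subtype.ext (coe_algebraMap_FF _)
  rw [e] at h
  exact Subtype.ext h

/-- THE CONCRETE `UnitData` (the two integrality statements over `L[τ]` are hypotheses here: they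
are proved in UNIT for subfields of `ℚ̄`). -/
theorem unitData_of (ι : L →+* ℂ) (hq : q.Prime) (hqM : ¬ q ∣ M0) (hl0 : c.lvl ∣ M0)
    (hϖ : Irreducible ϖ) (hunif : ϖ = (q : R)) (σ : L ≃+* L) (ε : ℤ) (hε : ε = 1 ∨ ε = -1)
    (hγ : ∃ k : ℕ, IsIntegral
      (Algebra.adjoin L ({c.tF L (UnitInst_dvd₄ c hl0) ^ ε} : Set (FF L (q * M0))))
      ((c.tF L (UnitInst_dvd₄ c hl0) ^ ε) ^ k * (c.gamma0F q L (UnitInst_dvd₂ c hl0))⁻¹))
    (he : IsIntegral
      (Algebra.adjoin L ({c.tF L (UnitInst_dvd₄ c hl0) ^ ε} : Set (FF L (q * M0))))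
      ((c.tF L (UnitInst_dvd₄ c hl0) ^ ε) ^ q / c.tVF L q (UnitInst_dvd₅ c hl0) ^ ε)) :
    UnitData ϖ q (gaussO R (q * M0)) (w1C R q M0) (mapFFEquiv σ (q * M0))
      (c.tF L (UnitInst_dvd₃ c hl0) ^ ε) (DC c R (UnitInst_dvd₁ c hl0))
      (c.gamma0F q L (UnitInst_dvd₂ c hl0)) (c.sF L (UnitInst_dvd₁ c hl0))
      ((c.tF L (UnitInst_dvd₄ c hl0) ^ ε) ^ q / c.tVF L q (UnitInst_dvd₅ c hl0) ^ ε) where
  unif := hunif
  D_mem := fun x hx => UnitInst_isGInt_Dd c hx
  D_sub := fun f => ⟨⟨c.Dd L f, c.Dd_mem_FF L hl0 f.2⟩, by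
    apply Subtype.ext
    rw [coe_DC, coe_algebraMap_FF, coe_algebraMap_FF]⟩
  D_V := fun f => by
    have hW := UnitInst_isWq (L := L) (q := q) (M0 := M0) ι hq hqM
    have e2 : DC c R (UnitInst_dvd₁ c hl0) (algebraMap (FF L M0) (FF L (q * M0)) f) =
        algebraMap (FF L M0) (FF L (q * M0)) (⟨c.Dd L f, c.Dd_mem_FF L hl0 f.2⟩ : FF L M0) :=
      Subtype.ext (by rw [coe_DC, coe_algebraMap_FF, coe_algebraMap_FF])
    have e3 : ((algebraMap R (FF L (q * M0)) ϖ : FF L (q * M0)) : LaurentSeries L) =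
        (q : LaurentSeries L) := by
      rw [hunif, map_natCast]
      rfl
    apply Subtype.ext
    rw [e2, Frob_map_algebraMap, Frob_map_algebraMap, w1C_apply, w1C_apply, coe_DC, hW.onF1,
      MulMemClass.coe_mul, MulMemClass.coe_mul, hW.onF1, coe_mapFFEquiv, coe_mapFFEquiv,
      UnitInst_Dd_qExpand, e3, c.coeffMap_Dd]
    rfl
  D_s := c.DdF_sF L _
  s_int := ⟨1, by
    rw [UnitInst_map_tF c hl0]
    exact UnitInst_s_int c _ _ (c.gammat_sF_pow L _ _) (c.gammat_tF_ne_zero L _) ε hε⟩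
  γ_mem := UnitInst_isGInt_of_isInt (c.isInt_gamma0 q R)
  γ_inv_mem := by
    have e : (c.gamma0 q L)⁻¹ = c.gamma0Inv q L :=
      inv_eq_of_mul_eq_one_right (c.gamma0_mul_inv q L)
    rw [mem_gaussO, IntermediateField.coe_inv]
    change IsGInt R (c.gamma0 q L)⁻¹
    rw [e]
    exact UnitInst_isGInt_of_isInt (c.isInt_gamma0Inv q R)
  γ_ne := c.gamma0F_ne_zero q L _
  γ_w := by
    have hcop : q.Coprime M0 := (Nat.Prime.coprime_iff_not_dvd hq).2 hqM
    obtain ⟨h1, h2⟩ := c.wQ_sF q ι M0 hcop hl0 (UnitInst_dvd₁ c hl0) (UnitInst_dvd₂ c hl0)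
    have := c.w_gamma0F q L (UnitInst_dvd₂ c hl0) (wQ L q M0) h1 h2
    rw [hunif, map_natCast]
    exact this
  γ_int := by
    obtain ⟨k, hk⟩ := hγ
    obtain ⟨m, hm⟩ := wint_of_isIntegral hϖ hk
    exact ⟨k, m, by rw [UnitInst_map_tF c hl0]; exact hm⟩
  e_mul := by
    rw [UnitInst_map_tF c hl0, w1C_apply, UnitInst_w_tF c ι hq hqM hl0 ε,
      div_mul_cancel₀ _ (zpow_ne_zero _ (c.gammat_tVF_ne_zero q L _))]
  e_int := by
    obtain ⟨m, hm⟩ := wint_of_isIntegral hϖ he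
    exact ⟨m, by rw [UnitInst_map_tF c hl0]; exact hm⟩

end Inst

end

end Fermat.Agent.GT.Loc
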